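import Fermat.Agent.RT.Algebra.Relations

/-!
# A quotient of a power series ring finite over prescribed parameters

If every prime over an ideal `J`, the parameters `θ` and the maximal ideal of the coefficients
contains all variables, then the quotient by `J` is finite over the power series ring in the
parameters; in particular its dimension is at most the number of parameters plus one.
-/

set_option autoImplicit false

noncomputable section

namespace Fermat.Agent.RT.Lift

open MvPowerSeries IsLocalRing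
open Fermat.Agent.RT.Algebra (finite_of_quotient)

variable {O : Type*} [CommRing O] {σ τ : Type*} [Finite σ] [Finite τ]

omit [Finite σ] in
theorem finite_of_surjective_linearMap {J : Ideal (MvPowerSeries σ O)}
    [Module.Finite O (MvPowerSeries σ O ⧸ J)] {M : Type*} [AddCommGroup M] [Module O M]
    (g : MvPowerSeries σ O →ₗ[O] M) (hg : Function.Surjective g)
    (hJ : ∀ x ∈ J, g x = 0) : Module.Finite O M := by
  have := Module.Finite.equiv (Submodule.Quotient.restrictScalarsEquiv O J).symm
  refine Module.Finite.of_surjective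
    ((Submodule.restrictScalars O J).liftQ g fun x hx => LinearMap.mem_ker.mpr (hJ x hx)) fun x => ?_
  obtain ⟨y, rfl⟩ := hg x
  exact ⟨Submodule.Quotient.mk y, Submodule.liftQ_apply _ _ _⟩

/-- A quotient in which all variables are nilpotent is finite over the coefficients. -/
theorem finite_of_nilpotent_vars (J : Ideal (MvPowerSeries σ O))
    (h : ∀ c : σ, IsNilpotent (Ideal.Quotient.mk J (X c))) :
    Module.Finite O (MvPowerSeries σ O ⧸ J) := by
  classical
  have := Fintype.ofFinite σ
  set B := MvPowerSeries σ O ⧸ J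
  set mk := Ideal.Quotient.mk J
  set x : σ → B := fun c => mk (X c) with hx
  set A := Algebra.adjoin O (Set.range x)
  have hint : ∀ y ∈ Set.range x, IsIntegral O y := by
    rintro _ ⟨c, rfl⟩
    obtain ⟨n, hn⟩ := h c
    exact ⟨Polynomial.X ^ n, Polynomial.monic_X_pow n, by simp [x, hn]⟩
  have hAfin : Module.Finite O A :=
    Algebra.finite_adjoin_of_finite_of_isIntegral (Set.finite_range x) hint
  set I := Ideal.span (Set.range x)
  obtain ⟨N, hN⟩ : ∃ N, I ^ N = ⊥ := by
    have hrad : I ≤ (⊥ : Ideal B).radical := Ideal.span_le.mpr fun y hy => by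
      obtain ⟨c, rfl⟩ := hy
      obtain ⟨n, hn⟩ := h c
      exact ⟨n, by simpa [x] using hn⟩
    obtain ⟨N, hN⟩ := Ideal.exists_pow_le_of_le_radical_of_fg hrad
      (Submodule.fg_span (Set.finite_range x))
    exact ⟨N, le_bot_iff.mp hN⟩
  have key : ∀ n, ∀ b : B, ∃ a ∈ A, b - a ∈ I ^ n := by
    intro n
    induction n with
    | zero => exact fun b => ⟨0, zero_mem _, by simp⟩
    | succ n ih =>
      intro b
      obtain ⟨f, rfl⟩ := Ideal.Quotient.mk_surjective b
      obtain ⟨g, hg⟩ := Ideal.mem_span_range_iff_exists_fun.mp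
        (Patching.sub_C_mem_span_range_X f)
      choose a haA ha using fun c => ih (mk (g c))
      refine ⟨algebraMap O B (constantCoeff f) + ∑ c, a c * x c,
        add_mem (A.algebraMap_mem _) (sum_mem fun c _ =>
          mul_mem (haA c) (Algebra.subset_adjoin ⟨c, rfl⟩)), ?_⟩
      have h1 := congrArg mk hg
      simp only [map_sum, map_mul, map_sub] at h1
      have h2 : algebraMap O B (constantCoeff f) = mk (C (constantCoeff f)) := rfl
      rw [h2, show mk f - (mk (C (constantCoeff f)) + ∑ c, a c * x c) =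
        ∑ c, (mk (g c) - a c) * x c by
          simp only [sub_mul, Finset.sum_sub_distrib, hx, h1]; ring]
      rw [pow_succ]
      exact sum_mem fun c _ => Ideal.mul_mem_mul (ha c) (Ideal.subset_span ⟨c, rfl⟩)
  have hA : A = ⊤ := eq_top_iff.mpr fun b _ => by
    obtain ⟨a, ha, hb⟩ := key N b
    rw [hN, Ideal.mem_bot, sub_eq_zero] at hb
    exact hb ▸ ha
  rw [hA] at hAfin
  exact Module.Finite.equiv (Subalgebra.topEquiv : (⊤ : Subalgebra O B) ≃ₐ[O] B).toLinearEquiv

variable [IsLocalRing O] [IsNoetherianRing O] [IsAdicComplete (maximalIdeal O) O]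

theorem finite_subst {θ : τ → MvPowerSeries σ O} (hθ : ∀ i, constantCoeff (θ i) = 0)
    {J : Ideal (MvPowerSeries σ O)} (hJ : J ≤ maximalIdeal _)
    (hnil : ∀ P : Ideal (MvPowerSeries σ O), P.IsPrime → J ≤ P → (∀ i, θ i ∈ P) →
      (∀ c ∈ maximalIdeal O, C c ∈ P) → ∀ s, X s ∈ P) :
    ((Ideal.Quotient.mk J).comp
      (substAlgHom (R := O) (hasSubst_of_constantCoeff_zero hθ)).toRingHom).Finite := by
  classical
  let Λ := MvPowerSeries σ O
  let S0 := MvPowerSeries τ O
  let N := Λ ⧸ J
  set sub := substAlgHom (R := O) (hasSubst_of_constantCoeff_zero hθ)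
  let _ : Algebra S0 N := ((Ideal.Quotient.mk J).comp sub.toRingHom).toAlgebra
  have : IsScalarTower O S0 N := IsScalarTower.of_algebraMap_eq fun c => by
    rw [RingHom.algebraMap_toAlgebra, RingHom.comp_apply, AlgHom.toRingHom_eq_coe,
      RingHom.coe_coe, AlgHom.commutes]
    rfl
  let m := maximalIdeal Λ
  have hCm : ∀ c ∈ maximalIdeal O, (C c : Λ) ∈ m := fun c hc =>
    (IsLocalRing.mem_maximalIdeal _).mpr fun h => (IsLocalRing.mem_maximalIdeal c).mp hc (by
      have := MvPowerSeries.isUnit_iff_constantCoeff.mp h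
      simpa using this)
  have : Nontrivial N := Ideal.Quotient.nontrivial_iff.mpr fun h =>
    (maximalIdeal.isMaximal Λ).ne_top (top_le_iff.mp (h ▸ hJ))
  have : IsLocalRing N := IsLocalRing.of_surjective' _ Ideal.Quotient.mk_surjective
  set I0 : Ideal S0 := Ideal.span (Set.range X)
  have hparm : ∀ i, sub (X i : S0) ∈ m := fun i => by
    rw [show sub (X i : S0) = θ i from substAlgHom_X _ i, IsLocalRing.mem_maximalIdeal]
    intro h
    simpa [hθ i] using MvPowerSeries.isUnit_iff_constantCoeff.mp h
  have hI0 : I0.map (algebraMap S0 N) ≤ maximalIdeal N := by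
    rw [Ideal.map_span, Ideal.span_le]
    rintro _ ⟨_, ⟨i, rfl⟩, rfl⟩
    exact (IsLocalRing.eq_maximalIdeal (Ideal.comap_isMaximal_of_surjective
      (Ideal.Quotient.mk J) Ideal.Quotient.mk_surjective (K := maximalIdeal N))).ge (hparm i)
  have : IsHausdorff I0 N := IsHausdorff.of_map (S := N) hI0
  set J1 : Ideal Λ := J ⊔ Ideal.span (Set.range θ)
  set J0 : Ideal Λ := J1 ⊔ (maximalIdeal O).map (C (σ := σ))
  have hB0 : Module.Finite O (Λ ⧸ J0) := by
    refine finite_of_nilpotent_vars J0 fun c => nilpotent_iff_mem_prime.mpr fun P hP => ?_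
    have hle : J0 ≤ P.comap (Ideal.Quotient.mk J0) := by
      rw [← Ideal.map_le_iff_le_comap, Ideal.map_quotient_self]
      exact bot_le
    exact hnil _ (Ideal.IsPrime.comap _) ((le_sup_left.trans le_sup_left).trans hle)
      (fun i => hle (Ideal.mem_sup_left (Ideal.mem_sup_right (Ideal.subset_span ⟨i, rfl⟩))))
      (fun d hd => hle (Ideal.mem_sup_right (Ideal.mem_map_of_mem _ hd))) c
  have hB1 : Module.Finite O (Λ ⧸ J1) := by
    set π := maximalIdeal O
    let g : Λ →ₗ[O] ((Λ ⧸ J1) ⧸ (π • ⊤ : Submodule O (Λ ⧸ J1))) :=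
      (Submodule.mkQ _).comp (Ideal.Quotient.mkₐ O J1).toLinearMap
    have : Module.Finite O ((Λ ⧸ J1) ⧸ (π • ⊤ : Submodule O (Λ ⧸ J1))) := by
      refine finite_of_surjective_linearMap g
        ((Submodule.mkQ_surjective _).comp Ideal.Quotient.mk_surjective) (J := J0) fun x hx => ?_
      obtain ⟨y, hy, z, hz, rfl⟩ := Submodule.mem_sup.mp hx
      simp only [g, LinearMap.comp_apply, AlgHom.toLinearMap_apply, Ideal.Quotient.mkₐ_eq_mk,
        map_add, Ideal.Quotient.eq_zero_iff_mem.mpr hy, map_zero, zero_add, Submodule.mkQ_apply,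
        Submodule.Quotient.mk_eq_zero]
      rw [Ideal.smul_top_eq_map, Submodule.restrictScalars_mem]
      have := Ideal.mem_map_of_mem (Ideal.Quotient.mk J1) hz
      rwa [Ideal.map_map] at this
    have hJ1 : J1 ≤ m := sup_le hJ (Ideal.span_le.mpr (by
      rintro _ ⟨i, rfl⟩
      exact substAlgHom_X (R := O) (hasSubst_of_constantCoeff_zero hθ) i ▸ hparm i))
    have : Nontrivial (Λ ⧸ J1) := Ideal.Quotient.nontrivial_iff.mpr fun h =>
      (maximalIdeal.isMaximal Λ).ne_top (top_le_iff.mp (h ▸ hJ1))
    have : IsLocalRing (Λ ⧸ J1) := IsLocalRing.of_surjective' _ Ideal.Quotient.mk_surjective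
    have : IsHausdorff π (Λ ⧸ J1) := IsHausdorff.of_map (S := Λ ⧸ J1)
      (J := maximalIdeal (Λ ⧸ J1)) (by
        rw [Ideal.map_le_iff_le_comap]
        exact fun c hc => (IsLocalRing.eq_maximalIdeal (Ideal.comap_isMaximal_of_surjective
          (Ideal.Quotient.mk J1) Ideal.Quotient.mk_surjective
          (K := maximalIdeal (Λ ⧸ J1)))).ge (hCm c hc))
    exact finite_of_quotient π
  let g : Λ →ₗ[O] (N ⧸ (I0 • ⊤ : Submodule S0 N)) :=
    ((Submodule.mkQ (I0 • ⊤ : Submodule S0 N)).restrictScalars O).comp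
      (Ideal.Quotient.mkₐ O J).toLinearMap
  have : Module.Finite O (N ⧸ (I0 • ⊤ : Submodule S0 N)) := by
    refine finite_of_surjective_linearMap g
      ((Submodule.mkQ_surjective _).comp Ideal.Quotient.mk_surjective) (J := J1) fun x hx => ?_
    obtain ⟨y, hy, z, hz, rfl⟩ := Submodule.mem_sup.mp hx
    simp only [g, LinearMap.comp_apply, LinearMap.restrictScalars_apply, AlgHom.toLinearMap_apply,
      Ideal.Quotient.mkₐ_eq_mk, map_add, Ideal.Quotient.eq_zero_iff_mem.mpr hy, map_zero, zero_add,
      Submodule.mkQ_apply, Submodule.Quotient.mk_eq_zero]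
    rw [Ideal.smul_top_eq_map, Submodule.restrictScalars_mem]
    have hle : Ideal.span (Set.range θ) ≤
        (I0.map (algebraMap S0 N)).comap (Ideal.Quotient.mk J) :=
      Ideal.span_le.mpr (by
        rintro _ ⟨i, rfl⟩
        rw [SetLike.mem_coe, Ideal.mem_comap,
          ← substAlgHom_X (R := O) (hasSubst_of_constantCoeff_zero hθ) i]
        exact Ideal.mem_map_of_mem (algebraMap S0 N) (Ideal.subset_span ⟨i, rfl⟩))
    exact hle hz
  have : Module.Finite S0 (N ⧸ (I0 • ⊤ : Submodule S0 N)) :=
    Module.Finite.of_restrictScalars_finite O S0 _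
  exact finite_of_quotient I0

omit [IsAdicComplete (maximalIdeal O) O] in
/-- Parameters finite on a prime quotient of at least their dimension are independent there. -/
theorem injective_subst_of_dim [IsDomain O] {A : Type*} [CommRing A]
    (f : MvPowerSeries τ O →+* A) (hfin : f.Finite)
    (hdim : ringKrullDim (MvPowerSeries τ O) ≤ ringKrullDim A) : Function.Injective f := by
  have : IsDomain (MvPowerSeries τ O) := NoZeroDivisors.to_isDomain _
  rw [RingHom.injective_iff_ker_eq_bot]
  by_contra hne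
  obtain ⟨d, hd, hd0⟩ := Submodule.exists_mem_ne_zero_of_ne_bot hne
  have hkf : (RingHom.kerLift f).Finite :=
    RingHom.Finite.of_comp_finite (f := Ideal.Quotient.mk (RingHom.ker f))
      (g := RingHom.kerLift f) (by
        rw [show (RingHom.kerLift f).comp (Ideal.Quotient.mk (RingHom.ker f)) = f from
          RingHom.ext fun x => rfl]
        exact hfin)
  let _ : Algebra (MvPowerSeries τ O ⧸ RingHom.ker f) A := (RingHom.kerLift f).toAlgebra
  have : Module.Finite (MvPowerSeries τ O ⧸ RingHom.ker f) A := hkf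
  have h1 : ringKrullDim (MvPowerSeries τ O) ≤ ringKrullDim (MvPowerSeries τ O ⧸ RingHom.ker f) :=
    hdim.trans Algebra.ringKrullDim_le_of_isIntegral
  have h2 := ringKrullDim_succ_le_of_surjective (Ideal.Quotient.mk (RingHom.ker f))
    Ideal.Quotient.mk_surjective (r := d) (mem_nonZeroDivisors_of_ne_zero hd0)
    (Ideal.Quotient.eq_zero_iff_mem.mpr hd)
  have h6 := (add_le_add h1 le_rfl).trans h2
  obtain ⟨D, hD⟩ := WithBot.ne_bot_iff_exists.mp
    (ringKrullDim_ne_bot (R := MvPowerSeries τ O))
  obtain ⟨D', rfl⟩ := ENat.ne_top_iff_exists.mp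
    (show D ≠ ⊤ from fun h => ringKrullDim_ne_top (R := MvPowerSeries τ O) (by rw [← hD, h]; rfl))
  rw [← hD] at h6
  exact absurd h6 (by norm_cast; omega)

end Fermat.Agent.RT.Lift
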