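import Fermat.Agent.RT.Algebra.Support
import Fermat.Agent.RT.Lift.Germ.Finite

/-!
# Components of products of local relations and their germ primes

A local component consists of polynomial relations, parameters, and a polynomial germ from which
every point of the relations is reached along polynomial arcs. For a family of local components
the germ ideal is the only prime over the relations whose quotient has the dimension of the
parameters.
-/

set_option autoImplicit false

noncomputable section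

namespace Fermat.Agent.RT.Lift

open MvPowerSeries IsLocalRing Fermat.Agent.RT.Germ
open Fermat.Agent.RT.Algebra (norm_le_one_of_isIntegral norm_ev_lt_one)

variable {K : Type*} [NontriviallyNormedField K] [IsUltrametricDist K]
  {O : Type} [CommRing O]

/-- Persistence along polynomial arcs. -/
def PersistsPoly {κ : Type} (S : (κ → ball1 K) → Prop) : Prop :=
  ∀ x : κ → Polynomial (ball1 K), (∀ i, ‖((x i).coeff 0 : K)‖ < 1) → ∀ ε : ℝ, 0 < ε →
    (∀ z : ball1 K, ‖(z : K)‖ < ε → ‖(z : K)‖ < 1 → S fun i => (x i).eval z) →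
    ∀ z : ball1 K, ‖(z : K)‖ < 1 → S fun i => (x i).eval z

/-- A component of the relations at one place. -/
structure LocalComp [IsLocalRing O] (φ : O →+* ball1 K) (κ : Type) where
  dim : ℕ
  rels : Set (MvPolynomial κ O)
  germ : κ → MvPolynomial (Fin dim) (ball1 K)
  germ_small : ∀ i, ‖((MvPolynomial.constantCoeff (germ i) : ball1 K) : K)‖ < 1
  rels_germ : ∀ g ∈ rels, ∀ b : Fin dim → ball1 K, (∀ i, ‖(b i : K)‖ < 1) →
    MvPolynomial.eval₂ φ (fun i => MvPolynomial.eval b (germ i)) g = 0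
  rels_const : ∀ g ∈ rels, MvPolynomial.constantCoeff g ∈ maximalIdeal O
  param : Fin dim → MvPolynomial κ O
  param_const : ∀ i, MvPolynomial.constantCoeff (param i) = 0
  nil : ∀ {B : Type} [CommRing B] (f : MvPolynomial κ O →+* B) (P : Ideal B), P.IsPrime →
    (∀ g ∈ rels, f g ∈ P) → (∀ i, f (param i) ∈ P) →
    (∀ c ∈ maximalIdeal O, f (MvPolynomial.C c) ∈ P) → ∀ i, f (MvPolynomial.X i) ∈ P
  reach : ∀ S : (κ → ball1 K) → Prop, PersistsPoly S →
    (∀ b : Fin dim → ball1 K, (∀ i, ‖(b i : K)‖ < 1) → S fun i => MvPolynomial.eval b (germ i)) →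
    ∀ pt : κ → ball1 K, (∀ i, ‖(pt i : K)‖ < 1) →
      (∀ g ∈ rels, MvPolynomial.eval₂ φ pt g = 0) → S pt

theorem norm_polyEval_lt_one {p : Polynomial (ball1 K)} (h0 : ‖(p.coeff 0 : K)‖ < 1) {z : ball1 K}
    (hz : ‖(z : K)‖ < 1) : ‖((p.eval z : ball1 K) : K)‖ < 1 := by
  have h := congrArg (fun r : Polynomial (ball1 K) => r.eval z) (Polynomial.divX_mul_X_add p)
  simp only [Polynomial.eval_add, Polynomial.eval_mul, Polynomial.eval_X, Polynomial.eval_C] at h
  rw [← h]
  refine (IsUltrametricDist.norm_add_le_max _ _).trans_lt (max_lt ?_ h0)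
  rw [Subring.coe_mul, norm_mul, mul_comm]
  exact lt_of_le_of_lt (mul_le_of_le_one_right (norm_nonneg _) (norm_coe_le _)) hz

variable {V : Type} {κ : V → Type} {ρ : Type}

/-- Coordinates: some at each place and further free ones. -/
abbrev LCoord (κ : V → Type) (ρ : Type) : Type := (Σ v, κ v) ⊕ ρ

/-- A polynomial in the coordinates of a place as a series. -/
def placeHom (v : V) : MvPolynomial (κ v) O →ₐ[O] MvPowerSeries (LCoord κ ρ) O :=
  MvPolynomial.aeval fun i => X (Sum.inl ⟨v, i⟩)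

theorem placeHom_X (v : V) (i : κ v) :
    placeHom (O := O) (ρ := ρ) v (MvPolynomial.X i) = X (Sum.inl ⟨v, i⟩) := by
  simp [placeHom]

theorem placeHom_C (v : V) (c : O) :
    placeHom (κ := κ) (ρ := ρ) v (MvPolynomial.C c) = C c := by
  simp [placeHom, MvPowerSeries.algebraMap_apply]

theorem constantCoeff_placeHom (v : V) (g : MvPolynomial (κ v) O) :
    constantCoeff (placeHom (ρ := ρ) v g) = MvPolynomial.constantCoeff g := by
  have h : (constantCoeff (σ := LCoord κ ρ) (R := O)).comp (placeHom (ρ := ρ) v).toRingHom =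
      MvPolynomial.constantCoeff := MvPolynomial.ringHom_ext
    (fun c => (congrArg _ (placeHom_C v c)).trans ((constantCoeff_C c).trans (MvPolynomial.constantCoeff_C _ c).symm)) (fun i => by simp [placeHom_X])
  exact RingHom.congr_fun h g

/-- Series attached to polynomials at each place. -/
def placeSeries {τ : V → Type} (x : ∀ v, κ v → MvPolynomial (τ v) (ball1 K)) :
    LCoord κ ρ → MvPowerSeries ((Σ v, τ v) ⊕ ρ) (ball1 K)
  | Sum.inl ⟨v, i⟩ =>
      ((MvPolynomial.rename (fun j => Sum.inl ⟨v, j⟩) (x v i) :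
        MvPolynomial ((Σ v, τ v) ⊕ ρ) (ball1 K)) : MvPowerSeries ((Σ v, τ v) ⊕ ρ) (ball1 K))
  | Sum.inr r => X (Sum.inr r)

theorem placeSeries_small {τ : V → Type} {x : ∀ v, κ v → MvPolynomial (τ v) (ball1 K)}
    (hx : ∀ v i, ‖((MvPolynomial.constantCoeff (x v i) : ball1 K) : K)‖ < 1) (c : LCoord κ ρ) :
    ‖((constantCoeff (placeSeries (ρ := ρ) x c) : ball1 K) : K)‖ < 1 := by
  obtain ⟨v, i⟩ | r := c
  · simp only [placeSeries]
    rw [← coeff_zero_eq_constantCoeff_apply, MvPolynomial.coeff_coe,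
      ← MvPolynomial.constantCoeff_eq, MvPolynomial.constantCoeff_rename]
    exact hx v i
  · simp [placeSeries]

variable [CompleteSpace K] {φ : O →+* ball1 K}

theorem ev_placeHom [Finite (LCoord κ ρ)] (a : LCoord κ ρ → ball1 K)
    (ha : ∀ i, ‖(a i : K)‖ < 1) (v : V) (g : MvPolynomial (κ v) O) :
    ev φ a ha (placeHom v g) = MvPolynomial.eval₂ φ (fun i => a (Sum.inl ⟨v, i⟩)) g := by
  have h : (ev φ a ha).comp (placeHom v).toRingHom =
      MvPolynomial.eval₂Hom φ fun i => a (Sum.inl ⟨v, i⟩) := MvPolynomial.ringHom_ext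
    (fun c => (congrArg _ (placeHom_C v c)).trans ((ev_C φ a ha c).trans (by simp)))
    (fun i => by simp [placeHom_X, ev_X])
  exact RingHom.congr_fun h g

theorem evBall_coe {τ : Type} [Finite τ] (b : τ → ball1 K) (hb : ∀ i, ‖(b i : K)‖ < 1)
    (g : MvPolynomial τ (ball1 K)) :
    evBall b hb (g : MvPowerSeries τ (ball1 K)) = MvPolynomial.eval b g := by
  have h : (evBall b hb).comp MvPolynomial.coeToMvPowerSeries.ringHom = MvPolynomial.eval b :=
    MvPolynomial.ringHom_ext (fun c => by simp [evBall_C]) (fun i => by simp [evBall_X])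
  exact RingHom.congr_fun h g

theorem evBall_placeSeries {τ : V → Type} [Finite ((Σ v, τ v) ⊕ ρ)]
    (x : ∀ v, κ v → MvPolynomial (τ v) (ball1 K)) (b : (Σ v, τ v) ⊕ ρ → ball1 K)
    (hb : ∀ i, ‖(b i : K)‖ < 1) (v : V) (i : κ v) :
    evBall b hb (placeSeries (ρ := ρ) x (Sum.inl ⟨v, i⟩)) =
      MvPolynomial.eval (fun j => b (Sum.inl ⟨v, j⟩)) (x v i) := by
  simp only [placeSeries, evBall_coe, MvPolynomial.eval_rename]
  rfl

/-- Membership of the kernel of a substitution is vanishing at all small points. -/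
theorem mem_ker_compose_iff {σ τ : Type} [Finite σ] [Finite τ]
    {Y : σ → MvPowerSeries τ (ball1 K)}
    (hY : ∀ i, ‖((constantCoeff (Y i) : ball1 K) : K)‖ < 1) {f : MvPowerSeries σ O} :
    f ∈ RingHom.ker (compose φ Y hY) ↔ ∀ (b : τ → ball1 K) (hb : ∀ i, ‖(b i : K)‖ < 1),
      ev φ (fun i => evBall b hb (Y i)) (fun i => norm_evBall_lt_one (hY i) b hb) f = 0 := by
  refine ⟨fun h b hb => ?_, fun h => compose_eq_zero φ Y hY f one_pos fun b hb _ => h b hb⟩
  rw [← evBall_compose φ Y hY, show compose φ Y hY f = 0 from h, map_zero]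

section Germ

variable [IsLocalRing O] (c : ∀ v, LocalComp φ (κ v))

/-- The relations of a family of local components. -/
def relsIdeal : Ideal (MvPowerSeries (LCoord κ ρ) O) :=
  Ideal.span (⋃ v, (placeHom v : MvPolynomial (κ v) O →ₐ[O] _) '' (c v).rels)

/-- The expansion at the base points of the components. -/
def compSeries : LCoord κ ρ → MvPowerSeries ((Σ v, Fin (c v).dim) ⊕ ρ) (ball1 K) :=
  placeSeries fun v => (c v).germ

/-- The germ ideal of a family of local components. -/
def compGerm [Finite V] [∀ v, Finite (κ v)] [Finite ρ] : Ideal (MvPowerSeries (LCoord κ ρ) O) :=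
  RingHom.ker (compose φ (compSeries (ρ := ρ) c) (placeSeries_small fun v => (c v).germ_small))

variable [Finite V] [∀ v, Finite (κ v)] [Finite ρ]

theorem compGerm_isPrime : (compGerm (ρ := ρ) c).IsPrime :=
  have : IsDomain (MvPowerSeries ((Σ v, Fin (c v).dim) ⊕ ρ) (ball1 K)) :=
    NoZeroDivisors.to_isDomain _
  RingHom.ker_isPrime _

omit [CompleteSpace K] [Finite V] [∀ v, Finite (κ v)] [Finite ρ] in
theorem mem_relsIdeal {v : V} {g : MvPolynomial (κ v) O} (hg : g ∈ (c v).rels) :
    placeHom v g ∈ relsIdeal (ρ := ρ) c :=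
  Ideal.subset_span (Set.mem_iUnion.mpr ⟨v, g, hg, rfl⟩)

omit [CompleteSpace K] [Finite V] [∀ v, Finite (κ v)] [Finite ρ] in
theorem relsIdeal_le {I : Ideal (MvPowerSeries (LCoord κ ρ) O)}
    (h : ∀ v, ∀ g ∈ (c v).rels, placeHom v g ∈ I) : relsIdeal (ρ := ρ) c ≤ I :=
  Ideal.span_le.mpr (Set.iUnion_subset fun v => Set.image_subset_iff.mpr fun g hg => h v g hg)

theorem relsIdeal_le_compGerm : relsIdeal (ρ := ρ) c ≤ compGerm (ρ := ρ) c := by
  refine relsIdeal_le c fun v g hg => (mem_ker_compose_iff _).mpr fun b hb => ?_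
  rw [ev_placeHom]
  simp only [compSeries, evBall_placeSeries]
  exact (c v).rels_germ g hg _ fun j => hb _

/-- A series in the germ ideal vanishes at all points of the relations. -/
theorem ev_eq_zero_of_mem_compGerm {f : MvPowerSeries (LCoord κ ρ) O}
    (hf : f ∈ compGerm (ρ := ρ) c) (x : LCoord κ ρ → ball1 K) (hx : ∀ i, ‖(x i : K)‖ < 1)
    (hrel : ∀ v, ∀ g ∈ (c v).rels,
      MvPolynomial.eval₂ φ (fun i => x (Sum.inl ⟨v, i⟩)) g = 0) : ev φ x hx f = 0 := by
  classical
  have := Fintype.ofFinite V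
  let mk : (∀ v, κ v → ball1 K) → LCoord κ ρ → ball1 K := fun xs =>
    Sum.elim (fun vi => xs vi.1 vi.2) fun r => x (Sum.inr r)
  have hmk : ∀ {xs : ∀ v, κ v → ball1 K}, (∀ v i, ‖(xs v i : K)‖ < 1) →
      ∀ i, ‖(mk xs i : K)‖ < 1 := fun h i => by
    obtain ⟨v, j⟩ | r := i
    exacts [h v j, hx _]
  suffices H : ∀ s : Finset V, ∀ (xs : ∀ v, κ v → ball1 K) (h : ∀ v i, ‖(xs v i : K)‖ < 1),
      (∀ v ∈ s, ∀ g ∈ (c v).rels, MvPolynomial.eval₂ φ (xs v) g = 0) →
      (∀ v, v ∉ s → ∃ b : Fin (c v).dim → ball1 K, (∀ i, ‖(b i : K)‖ < 1) ∧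
        xs v = fun i => MvPolynomial.eval b ((c v).germ i)) →
      ev φ (mk xs) (hmk h) f = 0 by
    rw [← H Finset.univ (fun v i => x (Sum.inl ⟨v, i⟩)) (fun v i => hx _) (fun v _ => hrel v)
      fun v h => absurd (Finset.mem_univ v) h]
    exact ev_congr φ (funext fun i => by obtain ⟨v, j⟩ | r := i <;> rfl) _ _ f
  intro s
  induction s using Finset.induction with
  | empty =>
    intro xs h _ hg
    choose b hb hxs using fun v => hg v (Finset.notMem_empty v)
    let B : (Σ v, Fin (c v).dim) ⊕ ρ → ball1 K :=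
      Sum.elim (fun vj => b vj.1 vj.2) fun r => x (Sum.inr r)
    have hB : ∀ i, ‖(B i : K)‖ < 1 := by
      rintro (⟨v, j⟩ | r)
      exacts [hb v j, hx _]
    rw [← (mem_ker_compose_iff _).mp hf B hB]
    refine ev_congr φ (funext fun i => ?_) _ _ f
    obtain ⟨v, j⟩ | r := i
    · rw [compSeries, evBall_placeSeries]
      exact congrFun (hxs v) j
    · exact (evBall_X (b := B) (hb := hB) (Sum.inr r)).symm
  | @insert v s hv ih =>
    intro xs h hrel hg
    let S : (κ v → ball1 K) → Prop := fun P => ∀ hP : ∀ w i, ‖(Function.update xs v P w i : K)‖ < 1,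
      ev φ (mk (Function.update xs v P)) (hmk hP) f = 0
    have hupd : ∀ {P : κ v → ball1 K}, (∀ i, ‖(P i : K)‖ < 1) →
        ∀ w i, ‖(Function.update xs v P w i : K)‖ < 1 := fun hP w i => by
      rcases eq_or_ne w v with rfl | hw
      · rw [Function.update_self]; exact hP i
      · rw [Function.update_of_ne hw]; exact h w i
    have hpers : PersistsPoly S := by
      intro p hp0 ε hε hsmall z hz hP
      let fam : LCoord κ ρ → MvPowerSeries (Fin 1) (ball1 K) :=
        Sum.elim (fun wi => Function.update (fun w i => C (xs w i)) v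
            (fun i => Polynomial.eval₂ C (X 0) (p i)) wi.1 wi.2)
          fun r => C (x (Sum.inr r))
      have hfam : ∀ e, ‖((constantCoeff (fam e) : ball1 K) : K)‖ < 1 := by
        rintro (⟨w, i⟩ | r)
        · rcases eq_or_ne w v with rfl | hw
          · simp only [fam, Sum.elim_inl, Function.update_self, Polynomial.hom_eval₂,
              constantCoeff_X, Polynomial.eval₂_at_zero, RingHom.comp_apply, constantCoeff_C]
            exact hp0 i
          · simp only [fam, Sum.elim_inl, Function.update_of_ne hw, constantCoeff_C]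
            exact h w i
        · simp only [fam, Sum.elim_inr, constantCoeff_C]
          exact hx _
      have hval : ∀ (b : Fin 1 → ball1 K) (hb : ∀ i, ‖(b i : K)‖ < 1),
          (fun e => evBall b hb (fam e)) =
            mk (Function.update xs v fun i => (p i).eval (b 0)) := by
        intro b hb
        funext e
        obtain ⟨w, i⟩ | r := e
        · rcases eq_or_ne w v with rfl | hw
          · simp only [fam, mk, Sum.elim_inl, Function.update_self, Polynomial.hom_eval₂, evBall_X]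
            rw [show (evBall b hb).comp C = RingHom.id _ from RingHom.ext fun _ => evBall_C (b := b) (hb := hb) _]
            rfl
          · simp only [fam, mk, Sum.elim_inl, Function.update_of_ne hw, evBall_C]
        · exact evBall_C _
      have key := ev_family_eq_zero φ fam hfam f hε (fun b hb hbε => ?_) (fun _ => z) (fun _ => hz)
      · rw [← key]
        exact ev_congr φ (hval (fun _ => z) (fun _ => hz)).symm (hmk hP)
          (fun i => norm_evBall_lt_one (hfam i) _ _) f
      · rw [← hsmall (b 0) (hbε 0) (hb 0) (hupd fun i => norm_polyEval_lt_one (hp0 i) (hb 0))]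
        exact ev_congr φ (hval b hb) (fun i => norm_evBall_lt_one (hfam i) b hb)
          (hmk (hupd fun i => norm_polyEval_lt_one (hp0 i) (hb 0))) f
    have hgerm : ∀ b : Fin (c v).dim → ball1 K, (∀ i, ‖(b i : K)‖ < 1) →
        S fun i => MvPolynomial.eval b ((c v).germ i) := by
      intro b hb hP
      refine ih _ hP (fun w hw => ?_) fun w hw => ?_
      · rw [Function.update_of_ne fun he : w = v => hv (he ▸ hw)]
        exact hrel w (Finset.mem_insert_of_mem hw)
      · rcases eq_or_ne w v with rfl | hwv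
        · exact ⟨b, hb, Function.update_self ..⟩
        · rw [Function.update_of_ne hwv]
          exact hg w (by simp [hw, hwv])
    have h' : ∀ w i, ‖(Function.update xs v (xs v) w i : K)‖ < 1 := fun w i => by
      rw [Function.update_eq_self]
      exact h w i
    have e : ev φ (mk (Function.update xs v (xs v))) (hmk h') f = 0 :=
      (c v).reach S hpers hgerm (xs v) (h v) (hrel v (Finset.mem_insert_self v s)) h'
    exact (ev_congr φ (congrArg mk (Function.update_eq_self v xs).symm) (hmk h) (hmk h') f).trans e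

/-- The parameters at all places. -/
def compParam : (Σ v, Fin (c v).dim) ⊕ ρ → MvPowerSeries (LCoord κ ρ) O :=
  Sum.elim (fun vj => placeHom vj.1 ((c vj.1).param vj.2)) fun r => X (Sum.inr r)

omit [CompleteSpace K] [Finite V] [∀ v, Finite (κ v)] [Finite ρ] in
theorem constantCoeff_compParam (i : (Σ v, Fin (c v).dim) ⊕ ρ) :
    constantCoeff (compParam (ρ := ρ) c i) = 0 := by
  obtain ⟨v, j⟩ | r := i
  · exact (constantCoeff_placeHom v _).trans ((c v).param_const j)
  · exact constantCoeff_X _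

omit [CompleteSpace K] [Finite V] [∀ v, Finite (κ v)] [Finite ρ] in
theorem relsIdeal_le_maximalIdeal : relsIdeal (ρ := ρ) c ≤ maximalIdeal _ :=
  relsIdeal_le c fun v g hg => (IsLocalRing.mem_maximalIdeal _).mpr fun h => by
    have h' := MvPowerSeries.isUnit_iff_constantCoeff.mp h
    rw [constantCoeff_placeHom] at h'
    exact (IsLocalRing.mem_maximalIdeal _).mp ((c v).rels_const g hg) h'

variable [IsDomain O] [IsDiscreteValuationRing O] [IsAdicComplete (maximalIdeal O) O]

set_option linter.overlappingInstances false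

omit [CompleteSpace K] in
theorem finite_compParam :
    ((Ideal.Quotient.mk (relsIdeal (ρ := ρ) c)).comp
      (substAlgHom (R := O)
        (hasSubst_of_constantCoeff_zero (constantCoeff_compParam c))).toRingHom).Finite := by
  refine finite_subst (constantCoeff_compParam c) (relsIdeal_le_maximalIdeal c)
    fun P hP hJ hθ hC s => ?_
  obtain ⟨v, i⟩ | r := s
  · rw [← placeHom_X]
    exact (c v).nil (placeHom v).toRingHom P hP (fun g hg => hJ (mem_relsIdeal c hg))
      (fun j => hθ (Sum.inl ⟨v, j⟩)) (fun d hd => by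
        rw [show (placeHom v).toRingHom (MvPolynomial.C d) = C d from placeHom_C v d]
        exact hC d hd) i
  · exact hθ (Sum.inr r)

variable [IsAlgClosed K]

/-- **Uniqueness of the component**: a prime over the relations whose quotient has at least the
dimension of the power series ring in the parameters is the germ ideal. -/
theorem eq_compGerm (hφinj : Function.Injective φ)
    (hφ : ∀ a ∈ maximalIdeal O, ‖(φ a : K)‖ < 1) {𝔮 : Ideal (MvPowerSeries (LCoord κ ρ) O)}
    [𝔮.IsPrime] (hJ : relsIdeal c ≤ 𝔮)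
    (hdim : ringKrullDim (MvPowerSeries ((Σ v, Fin (c v).dim) ⊕ ρ) O) ≤
      ringKrullDim (MvPowerSeries (LCoord κ ρ) O ⧸ 𝔮)) :
    𝔮 = compGerm c := by
  classical
  let S0 := MvPowerSeries ((Σ v, Fin (c v).dim) ⊕ ρ) O
  let Λ := MvPowerSeries (LCoord κ ρ) O
  let sub := substAlgHom (R := O) (hasSubst_of_constantCoeff_zero (constantCoeff_compParam (ρ := ρ) c))
  have hfinQ : ∀ I : Ideal Λ, relsIdeal c ≤ I →
      ((Ideal.Quotient.mk I).comp sub.toRingHom).Finite := fun I hI => by
    have h := (RingHom.Finite.of_surjective (Ideal.Quotient.factor hI)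
      (Ideal.Quotient.factor_surjective hI)).comp (finite_compParam (ρ := ρ) c)
    rwa [← RingHom.comp_assoc, Ideal.Quotient.factor_comp_mk] at h
  have htop : ringKrullDim S0 ≠ ⊤ := ringKrullDim_ne_top
  have hbot : ringKrullDim S0 ≠ ⊥ := ringKrullDim_ne_bot
  have hlt : ∀ x : WithBot ℕ∞, ringKrullDim S0 ≤ x → ¬ x + 1 ≤ ringKrullDim S0 := by
    intro x hx hx'
    obtain ⟨D, hD⟩ := WithBot.ne_bot_iff_exists.mp hbot
    obtain ⟨D', rfl⟩ := ENat.ne_top_iff_exists.mp
      (show D ≠ ⊤ from fun h => htop (by rw [← hD, h]; rfl))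
    have h6 := (add_le_add hx le_rfl).trans hx'
    rw [← hD] at h6
    exact absurd h6 (by norm_cast; omega)
  let fq : S0 →+* Λ ⧸ 𝔮 := (Ideal.Quotient.mk 𝔮).comp sub.toRingHom
  let _ : Algebra S0 (Λ ⧸ 𝔮) := fq.toAlgebra
  have : Module.Finite S0 (Λ ⧸ 𝔮) := hfinQ 𝔮 hJ
  have hinj : Function.Injective (algebraMap S0 (Λ ⧸ 𝔮)) :=
    injective_subst_of_dim fq (hfinQ 𝔮 hJ) hdim
  have hQ𝔮 : compGerm c ≤ 𝔮 := by
    intro f hf
    by_contra hfq
    have hne : Ideal.Quotient.mk 𝔮 f ≠ 0 := fun h => hfq (Ideal.Quotient.eq_zero_iff_mem.mp h)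
    have hcomap : (Ideal.span {Ideal.Quotient.mk 𝔮 f}).comap (algebraMap S0 (Λ ⧸ 𝔮)) ≠ ⊥ :=
      Ideal.comap_ne_bot_of_integral_mem hne (Ideal.subset_span rfl)
        (Algebra.IsIntegral.isIntegral _)
    obtain ⟨g, hgmem, hg0⟩ := Submodule.exists_mem_ne_zero_of_ne_bot hcomap
    obtain ⟨d, hd⟩ : ∃ d, coeff d g ≠ 0 := by
      by_contra h
      simp only [not_exists, not_not] at h
      exact hg0 (MvPowerSeries.ext h)
    have := Fintype.ofFinite ((Σ v, Fin (c v).dim) ⊕ ρ)
    obtain ⟨y, hy, -, hyg⟩ :=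
      exists_ev_ne_zero φ (f := g) (d₁ := d) (fun h => hd (hφinj (by rw [h, map_zero]))) one_pos
    set 𝔭 : Ideal S0 := RingHom.ker (ev φ y hy)
    have : 𝔭.IsPrime := RingHom.ker_isPrime _
    obtain ⟨𝔯, -, h𝔯, h𝔯p⟩ := Ideal.exists_ideal_over_prime_of_isIntegral 𝔭 (⊥ : Ideal (Λ ⧸ 𝔮))
      (by rw [← RingHom.ker_eq_comap_bot, (RingHom.injective_iff_ker_eq_bot _).mp hinj]
          exact bot_le)
    have : 𝔯.LiesOver 𝔭 := ⟨h𝔯p.symm⟩
    let e : (S0 ⧸ 𝔭) →+* K := Ideal.Quotient.lift 𝔭 ((ball1 K).subtype.comp (ev φ y hy))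
      fun s hs => by simp [show ev φ y hy s = 0 from hs]
    have he : Function.Injective e := by
      rw [injective_iff_map_eq_zero]
      intro x hx
      obtain ⟨s, rfl⟩ := Ideal.Quotient.mk_surjective x
      exact Ideal.Quotient.eq_zero_iff_mem.mpr (Subtype.ext hx)
    let _ : Algebra (S0 ⧸ 𝔭) K := e.toAlgebra
    have : Module.IsTorsionFree (S0 ⧸ 𝔭) K :=
      Module.isTorsionFree_iff_algebraMap_injective.mpr he
    have hinj' : Function.Injective (algebraMap (S0 ⧸ 𝔭) ((Λ ⧸ 𝔮) ⧸ 𝔯)) := by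
      rw [injective_iff_map_eq_zero]
      intro x hx
      obtain ⟨s, rfl⟩ := Ideal.Quotient.mk_surjective x
      rw [Ideal.Quotient.algebraMap_mk_of_liesOver, Ideal.Quotient.eq_zero_iff_mem] at hx
      exact Ideal.Quotient.eq_zero_iff_mem.mpr ((Ideal.mem_of_liesOver 𝔯 𝔭 s).mpr hx)
    have : Module.IsTorsionFree (S0 ⧸ 𝔭) ((Λ ⧸ 𝔮) ⧸ 𝔯) :=
      Module.isTorsionFree_iff_algebraMap_injective.mpr hinj'
    have : Algebra.IsAlgebraic (S0 ⧸ 𝔭) ((Λ ⧸ 𝔮) ⧸ 𝔯) := ⟨fun x =>
      IsIntegral.isAlgebraic (IsIntegral.tower_top (R := S0) (A := S0 ⧸ 𝔭)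
        (Algebra.IsIntegral.isIntegral x))⟩
    let L : ((Λ ⧸ 𝔮) ⧸ 𝔯) →ₐ[S0 ⧸ 𝔭] K := IsAlgClosed.lift
    let ψA : (Λ ⧸ 𝔮) →+* K := L.toRingHom.comp (Ideal.Quotient.mk 𝔯)
    have hψS : ∀ s, ψA (algebraMap S0 (Λ ⧸ 𝔮) s) = (ev φ y hy s : K) := fun s => by
      have := L.commutes (Ideal.Quotient.mk 𝔭 s)
      rw [Ideal.Quotient.algebraMap_mk_of_liesOver] at this
      exact this
    have hψ1 : ∀ a, ‖ψA a‖ ≤ 1 := fun a => by
      refine norm_le_one_of_isIntegral ?_
      obtain ⟨P, hP, hPx⟩ := Algebra.IsIntegral.isIntegral (R := S0) a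
      refine ⟨P.map (ev φ y hy), hP.map _, ?_⟩
      have := congrArg ψA hPx
      rw [map_zero, Polynomial.hom_eval₂] at this
      rw [Polynomial.eval₂_map, show (algebraMap (ball1 K) K).comp (ev φ y hy) =
        ψA.comp (algebraMap S0 (Λ ⧸ 𝔮)) from RingHom.ext fun s => (hψS s).symm]
      exact this
    have hψm : ∀ x ∈ maximalIdeal Λ, ‖ψA (Ideal.Quotient.mk 𝔮 x)‖ < 1 := fun x hx => by
      set I := (maximalIdeal S0).map (algebraMap S0 (Λ ⧸ 𝔮))
      have hrad : Ideal.Quotient.mk 𝔮 x ∈ I.radical := by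
        rw [Ideal.radical_eq_sInf, Ideal.mem_sInf]
        rintro P ⟨hIP, hP⟩
        have hle : maximalIdeal S0 ≤ P.comap (algebraMap S0 (Λ ⧸ 𝔮)) :=
          Ideal.map_le_iff_le_comap.mp hIP
        have hcm : (P.comap (algebraMap S0 (Λ ⧸ 𝔮))).IsMaximal := by
          rw [← (maximalIdeal.isMaximal S0).eq_of_le (Ideal.IsPrime.comap _).ne_top hle]
          exact maximalIdeal.isMaximal S0
        have hPm : P.IsMaximal := Ideal.isMaximal_of_isIntegral_of_isMaximal_comap P hcm
        exact (IsLocalRing.eq_maximalIdeal (I := P.comap (Ideal.Quotient.mk 𝔮))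
          (Ideal.comap_isMaximal_of_surjective _ Ideal.Quotient.mk_surjective)).ge hx
      obtain ⟨n, hn⟩ := hrad
      have hI : ∀ z ∈ I, ‖ψA z‖ < 1 := fun z hz => by
        induction hz using Submodule.span_induction with
        | mem z hz =>
          obtain ⟨s, hs, rfl⟩ := hz
          rw [hψS]
          exact norm_ev_lt_one φ hφ y hy hs
        | zero => simp
        | add z w _ _ h1 h2 =>
          rw [map_add]
          exact (IsUltrametricDist.norm_add_le_max _ _).trans_lt (max_lt h1 h2)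
        | smul z w _ h1 =>
          rw [smul_eq_mul, map_mul, norm_mul]
          exact lt_of_le_of_lt (mul_le_of_le_one_left (norm_nonneg _) (hψ1 z)) h1
      have hlt : ‖ψA (Ideal.Quotient.mk 𝔮 x)‖ ^ n < 1 := by
        rw [← norm_pow, ← map_pow]
        exact hI _ hn
      exact (pow_lt_one_iff_of_nonneg (norm_nonneg _) fun h0 => by simp [h0] at hlt).mp hlt
    let ψ' : Λ →+* ball1 K := (ψA.comp (Ideal.Quotient.mk 𝔮)).codRestrict (ball1 K) fun x => hψ1 _
    let x : LCoord κ ρ → ball1 K := fun i => ψ' (X i)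
    have hx : ∀ i, ‖(x i : K)‖ < 1 := fun i => hψm _ ((IsLocalRing.mem_maximalIdeal _).mpr
      fun h => by simpa using MvPowerSeries.isUnit_iff_constantCoeff.mp h)
    have hψC : ∀ a, ψA (Ideal.Quotient.mk 𝔮 (C a)) = (φ a : K) := fun a => by
      rw [← show sub (C a) = (C a : Λ) from sub.commutes a]
      exact (hψS (C a)).trans (by rw [ev_C])
    have hψev : ψ' = ev φ x hx :=
      eq_ev φ x hx (fun a => Subtype.ext (hψC a)) fun i => rfl
    have hev : ev φ x hx f = 0 := by
      refine ev_eq_zero_of_mem_compGerm c hf x hx fun v r hr => ?_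
      rw [← ev_placeHom x hx, ← hψev]
      refine Subtype.ext ?_
      show ψA (Ideal.Quotient.mk 𝔮 (placeHom v r)) = 0
      rw [Ideal.Quotient.eq_zero_iff_mem.mpr (hJ (mem_relsIdeal c hr)), map_zero]
    obtain ⟨w, hw⟩ := Ideal.mem_span_singleton.mp hgmem
    refine hyg (Subtype.ext ?_)
    rw [← hψS, hw, map_mul]
    have : ψA (Ideal.Quotient.mk 𝔮 f) = 0 := by
      have h := congrArg Subtype.val (RingHom.congr_fun hψev f)
      rw [hev] at h
      exact h
    rw [this, zero_mul]
    rfl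
  by_contra hne
  obtain ⟨r, hr𝔮, hrQ⟩ := SetLike.exists_of_lt (lt_of_le_of_ne hQ𝔮 (Ne.symm hne))
  have : (compGerm (ρ := ρ) c).IsPrime := compGerm_isPrime c
  let fQ : S0 →+* Λ ⧸ compGerm c := (Ideal.Quotient.mk _).comp sub.toRingHom
  let _ : Algebra S0 (Λ ⧸ compGerm c) := fQ.toAlgebra
  have : Module.Finite S0 (Λ ⧸ compGerm c) := hfinQ _ (relsIdeal_le_compGerm c)
  exact hlt _ hdim ((ringKrullDim_succ_le_of_surjective (Ideal.Quotient.factor hQ𝔮)
    (Ideal.Quotient.factor_surjective hQ𝔮) (r := Ideal.Quotient.mk _ r)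
    (mem_nonZeroDivisors_of_ne_zero fun h => hrQ (Ideal.Quotient.eq_zero_iff_mem.mp h))
    (Ideal.Quotient.eq_zero_iff_mem.mpr hr𝔮 ▸ rfl)).trans Algebra.ringKrullDim_le_of_isIntegral)

end Germ

end Fermat.Agent.RT.Lift
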