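import Fermat.Agent.RT.Lift.Germ.Places

/-!
# Component recognition

A prime of full dimension over the relations of a component vanishes at every point of the
component. At a scalar place the local relations together with the sign of the trace of Frobenius
give the relations of the Steinberg component.
-/

set_option autoImplicit false

noncomputable section

namespace Fermat.Agent.RT.Lift

open IsLocalRing Fermat.Agent.RT.Germ

variable {K : Type*} [NontriviallyNormedField K] [IsUltrametricDist K] [CompleteSpace K]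
  {O : Type} [CommRing O] [IsLocalRing O] {φ : O →+* ball1 K}
  {V : Type} {κ : V → Type} {ρ : Type} [Finite V] [∀ v, Finite (κ v)] [Finite ρ]
  (c : ∀ v, LocalComp φ (κ v))

section Recognition

variable [IsDomain O] [IsDiscreteValuationRing O] [IsAdicComplete (maximalIdeal O) O] [IsAlgClosed K]

set_option linter.overlappingInstances false

/-- **Component recognition**: a prime over the relations with quotient of the dimension of the
parameters vanishes at every point of the relations. -/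
theorem le_ker_ev_of_dim (hφinj : Function.Injective φ)
    (hφ : ∀ a ∈ maximalIdeal O, ‖(φ a : K)‖ < 1) {𝔮 : Ideal (MvPowerSeries (LCoord κ ρ) O)}
    [𝔮.IsPrime] (hJ : relsIdeal c ≤ 𝔮)
    (hdim : ringKrullDim (MvPowerSeries ((Σ v, Fin (c v).dim) ⊕ ρ) O) ≤
      ringKrullDim (MvPowerSeries (LCoord κ ρ) O ⧸ 𝔮))
    (x : LCoord κ ρ → ball1 K) (hx : ∀ i, ‖(x i : K)‖ < 1)
    (hrel : ∀ v, ∀ g ∈ (c v).rels,
      MvPolynomial.eval₂ φ (fun i => x (Sum.inl ⟨v, i⟩)) g = 0) :
    𝔮 ≤ RingHom.ker (ev φ x hx) := fun _ hf =>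
  ev_eq_zero_of_mem_compGerm c (eq_compGerm c hφinj hφ hJ hdim ▸ hf) x hx hrel

end Recognition

section Scalar

open MvPolynomial Matrix

variable {h hm q ε : O}

variable (hm) in
/-- Frobenius in the coordinates of a scalar place. -/
def scalarFrob : Matrix (Fin 2) (Fin 2) (MvPolynomial (Fin 2 × Fin 3) O) :=
  !![C hm + X (1, 0), X (1, 1); X (1, 2), C hm - X (1, 0)]

/-- The monodromy in the coordinates of a scalar place. -/
def scalarNil : Matrix (Fin 2) (Fin 2) (MvPolynomial (Fin 2 × Fin 3) O) :=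
  !![X (0, 0), X (0, 1); X (0, 2), -X (0, 0)]

omit [IsLocalRing O] in
/-- The relations of the Steinberg component from `Φ N = q N Φ`, `N ^ 2 = 0`, `det Φ = q` and
`trace Φ = 2 hm = ε (q + 1)`. -/
theorem steinbergRels_mem {R : Type*} [CommRing R] {P : Ideal R} [P.IsPrime]
    (f : MvPolynomial (Fin 2 × Fin 3) O →+* R) (hε : ε ^ 2 = 1)
    (hhm : 2 * hm = ε * (q + 1)) (hh : 2 * h = ε * (q - 1))
    (h1 : f (C (q - 1)) ∉ P) (h1' : f (C (q + 1)) ∉ P) (h2 : f (C 2) ∉ P)
    (hN : f (X (0, 0) ^ 2 + X (0, 1) * X (0, 2)) ∈ P)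
    (hdet : f ((scalarFrob hm).det - C q) ∈ P)
    (hcomm : ∀ i j : Fin 2, f ((scalarFrob hm * scalarNil - (C q : MvPolynomial (Fin 2 × Fin 3) O) • (scalarNil * scalarFrob hm) :
      Matrix (Fin 2) (Fin 2) (MvPolynomial (Fin 2 × Fin 3) O)) i j) ∈ P) :
    ∀ g ∈ steinbergRels h, f g ∈ P := by
  let g₀ : MvPolynomial (Fin 2 × Fin 3) O →+* R ⧸ P := (Ideal.Quotient.mk P).comp f
  have hz : ∀ {g}, f g ∈ P ↔ g₀ g = 0 := (Ideal.Quotient.eq_zero_iff_mem).symm
  rw [hz] at h1 h1' h2 hN hdet
  have e00 := hz.mp (hcomm 0 0)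
  have e01 := hz.mp (hcomm 0 1)
  have e10 := hz.mp (hcomm 1 0)
  have e11 := hz.mp (hcomm 1 1)
  have eε : g₀ (C ε) ^ 2 = 1 := by rw [← map_pow, ← C.map_pow, hε, map_one, map_one]
  have ehm : 2 * g₀ (C hm) = g₀ (C ε) * (g₀ (C q) + 1) := by
    have := congrArg (fun o => g₀ (C o)) hhm
    simpa [map_ofNat] using this
  have eh : 2 * g₀ (C h) = g₀ (C ε) * (g₀ (C q) - 1) := by
    have := congrArg (fun o => g₀ (C o)) hh
    simpa [map_ofNat] using this
  simp only [map_ofNat, map_sub, map_add, map_one] at h1 h1' h2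
  simp [scalarFrob, scalarNil, Matrix.det_fin_two] at e00 e01 e10 e11 hdet hN
  set Q := g₀ (C q)
  set E := g₀ (C ε)
  set m := g₀ (C hm)
  set H := g₀ (C h)
  set a := g₀ (X (0, 0))
  set b := g₀ (X (0, 1))
  set e := g₀ (X (0, 2))
  set s := g₀ (X (1, 0))
  set t := g₀ (X (1, 1))
  set r := g₀ (X (1, 2))
  have hrb : t * e + r * b + 2 * (s * a) = 0 :=
    (mul_eq_zero.mp (show (Q - 1) * (t * e + r * b + 2 * (s * a)) = 0 by
      linear_combination -(e00 + e11))).resolve_left h1
  have hs : s * a + t * e - H * a = 0 :=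
    (mul_eq_zero.mp (show (2 * (Q + 1)) * (s * a + t * e - H * a) = 0 by
      linear_combination 2 * e00 + 2 * Q * hrb - (Q + 1) * a * eh + (Q - 1) * a * ehm)).resolve_left
      (mul_ne_zero h2 h1')
  have hb : s * b - t * a - H * b = 0 :=
    (mul_eq_zero.mp (show (2 * (Q + 1)) * (s * b - t * a - H * b) = 0 by
      linear_combination 2 * e01 - (Q + 1) * b * eh + (Q - 1) * b * ehm)).resolve_left
      (mul_ne_zero h2 h1')
  have he : r * a - s * e - H * e = 0 :=
    (mul_eq_zero.mp (show (2 * (Q + 1)) * (r * a - s * e - H * e) = 0 by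
      linear_combination 2 * e10 - (Q + 1) * e * eh + (Q - 1) * e * ehm)).resolve_left
      (mul_ne_zero h2 h1')
  have hsq : s ^ 2 + t * r - H ^ 2 = 0 :=
    (mul_eq_zero.mp (show (2 * 2) * (s ^ 2 + t * r - H ^ 2) = 0 by
      linear_combination -4 * hdet + (2 * m + E * (Q + 1)) * ehm - (2 * H + E * (Q - 1)) * eh
        + 4 * Q * eε)).resolve_left (mul_ne_zero h2 h2)
  intro g hg
  rw [hz]
  simp only [steinbergRels, Set.mem_insert_iff, Set.mem_singleton_iff] at hg
  rcases hg with rfl | rfl | rfl | rfl | rfl | rfl <;>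
    simp only [map_add, map_sub, map_mul, map_pow]
  exacts [hN, hsq, hs, hb, he, by linear_combination hrb - hs]

end Scalar

section Points

open MvPolynomial

variable {h : O}

omit [CompleteSpace K] [IsLocalRing O] in
/-- The point `D = diag (h, -h)`, `N = (0, b; 0, 0)` of the Steinberg component; for `b = 0` it
lies on the unramified component as well. -/
theorem steinberg_point (hh : ‖(φ h : K)‖ < 1) (b : ball1 K) (hb : ‖(b : K)‖ < 1) :
    let pt : Fin 2 × Fin 3 → ball1 K := fun p => ![![0, b, 0], ![φ h, 0, 0]] p.1 p.2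
    (∀ i, ‖(pt i : K)‖ < 1) ∧ ∀ g ∈ steinbergRels h, eval₂ φ pt g = 0 := by
  refine ⟨?_, fun g hg => ?_⟩
  · rintro ⟨i, j⟩
    fin_cases i <;> fin_cases j <;> simp [hh, hb]
  · simp only [steinbergRels, Set.mem_insert_iff, Set.mem_singleton_iff] at hg
    rcases hg with rfl | rfl | rfl | rfl | rfl | rfl <;> simp

end Points

end Fermat.Agent.RT.Lift
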