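import Fermat.Agent.RT.Lift.Chain
import Fermat.Agent.RT.Lift.Germ.Select

/-!
# Places as data for the chain of flips

`PlaceData` records, in the coordinates of one place, the two components, the relations and the
points used by a flip; `placesChainData` assembles a family of them into `ChainData`.
-/

set_option autoImplicit false

noncomputable section

namespace Fermat.Agent.RT.Lift

open IsLocalRing MvPowerSeries Fermat.Agent.RT.Germ

variable {K : Type*} [NontriviallyNormedField K] [IsUltrametricDist K] [CompleteSpace K]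
  {O : Type} [CommRing O] [IsLocalRing O] {φ : O →+* ball1 K}

/-- The data of one place. -/
structure PlaceData (φ : O →+* ball1 K) (κ : Type) [Finite κ] where
  ur : LocalComp φ κ
  st : LocalComp φ κ
  dim_eq : st.dim = ur.dim
  rel : Set (MvPowerSeries κ O)
  nSet : Set (MvPowerSeries κ O)
  c : MvPowerSeries κ O
  T : MvPowerSeries κ O
  y : MvPowerSeries κ O
  y' : MvPowerSeries κ O
  y_mul : y * y' = T ^ 2 - c ^ 2
  /-- Finiteness over the parameters of the relations with `nSet`, before any saturation. -/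
  ur_nil : ∀ P : Ideal (MvPowerSeries κ O), P.IsPrime → rel ⊆ P → nSet ⊆ P →
    (∀ j, (ur.param j : MvPowerSeries κ O) ∈ P) → (∀ a ∈ maximalIdeal O, C a ∈ P) → ∀ i, X i ∈ P
  /-- Finiteness over the parameters of the relations with `y`, before any saturation. -/
  st_nil : ∀ P : Ideal (MvPowerSeries κ O), P.IsPrime → rel ⊆ P → y ∈ P →
    (∀ j, (st.param j : MvPowerSeries κ O) ∈ P) → (∀ a ∈ maximalIdeal O, C a ∈ P) → ∀ i, X i ∈ P
  ur_rels : ∀ P : Ideal (MvPowerSeries κ O), P.IsPrime → (∀ a : O, a ≠ 0 → C a ∉ P) →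
    rel ⊆ P → nSet ⊆ P → ∀ g ∈ ur.rels, (g : MvPowerSeries κ O) ∈ P
  st_rels : ∀ P : Ideal (MvPowerSeries κ O), P.IsPrime → (∀ a : O, a ≠ 0 → C a ∉ P) →
    rel ⊆ P → y ∈ P → ∀ g ∈ st.rels, (g : MvPowerSeries κ O) ∈ P
  exists_meet : ∃ (pt : κ → ball1 K) (hpt : ∀ i, ‖(pt i : K)‖ < 1),
    (∀ g ∈ ur.rels, MvPolynomial.eval₂ φ pt g = 0) ∧ ev φ pt hpt y = 0 ∧ ev φ pt hpt y' ≠ 0
  exists_special : ∃ (pt : κ → ball1 K) (hpt : ∀ i, ‖(pt i : K)‖ < 1),
    (∀ g ∈ st.rels, MvPolynomial.eval₂ φ pt g = 0) ∧ ∃ a ∈ nSet, ev φ pt hpt (y' * a) ≠ 0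

variable {V : Type} {κ : V → Type} {ρ : Type}

omit [IsLocalRing O] in
theorem hasSubst_placeVar [Finite V] [∀ v, Finite (κ v)] (v : V) :
    HasSubst fun i => (X (Sum.inl ⟨v, i⟩) : MvPowerSeries (LCoord κ ρ) O) :=
  hasSubst_of_constantCoeff_zero fun _ => constantCoeff_X _

variable [Finite V] [∀ v, Finite (κ v)]

/-- The series in the coordinates of a place among all series. -/
def placeSubst (v : V) : MvPowerSeries (κ v) O →ₐ[O] MvPowerSeries (LCoord κ ρ) O :=
  substAlgHom (hasSubst_placeVar v)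

omit [IsLocalRing O] in
theorem placeSubst_coe (v : V) (g : MvPolynomial (κ v) O) :
    placeSubst (ρ := ρ) v (g : MvPowerSeries (κ v) O) = placeHom v g := by
  rw [placeSubst, substAlgHom_coe, placeHom]

variable [Finite ρ]

omit [IsLocalRing O] in
theorem ev_placeSubst (x : LCoord κ ρ → ball1 K) (hx : ∀ i, ‖(x i : K)‖ < 1) (v : V)
    (f : MvPowerSeries (κ v) O) :
    ev φ x hx (placeSubst v f) = ev φ (fun i => x (Sum.inl ⟨v, i⟩)) (fun _ => hx _) f := by
  refine RingHom.congr_fun (eq_ev φ (fun i => x (Sum.inl ⟨v, i⟩)) (fun i => hx _)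
    (ψ := (ev φ x hx).comp (placeSubst v).toRingHom) (fun r => ?_) (fun i => ?_)) f
  · show ev φ x hx (placeSubst v (C r)) = φ r
    rw [show (C r : MvPowerSeries (κ v) O) = algebraMap O _ r from rfl, AlgHom.commutes]
    exact ev_C φ x hx r
  · show ev φ x hx (placeSubst v (X i)) = _
    rw [placeSubst, substAlgHom_X, ev_X]

variable (D : ∀ v, PlaceData φ (κ v))

open Classical in
/-- The component special exactly at `B`. -/
def compAt (B : Finset V) (v : V) : LocalComp φ (κ v) := if v ∈ B then (D v).st else (D v).ur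

omit [Finite V] in
theorem compAt_dim (B : Finset V) (v : V) : (compAt D B v).dim = (D v).ur.dim := by
  rw [compAt]
  split
  · exact (D v).dim_eq
  · rfl

variable (ρ) in
/-- The points of the component special exactly at `B`, as primes. -/
def compPoints (B : Finset V) : Set (Ideal (MvPowerSeries (LCoord κ ρ) O)) :=
  {P | ∃ (x : LCoord κ ρ → ball1 K) (hx : ∀ i, ‖(x i : K)‖ < 1),
    (∀ v, ∀ g ∈ (compAt D B v).rels,
      MvPolynomial.eval₂ φ (fun i => x (Sum.inl ⟨v, i⟩)) g = 0) ∧ P = RingHom.ker (ev φ x hx)}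

variable (ρ) in
/-- The relations of all places. -/
def placesRel : Set (MvPowerSeries (LCoord κ ρ) O) :=
  ⋃ v, placeSubst v '' (D v).rel

omit [Finite ρ] in
theorem mem_of_placesRel_subset {P : Ideal (MvPowerSeries (LCoord κ ρ) O)}
    (h : placesRel ρ D ⊆ P) (v : V) :
    (D v).rel ⊆ P.comap (placeSubst v).toRingHom :=
  fun f hf => h (Set.mem_iUnion.mpr ⟨v, f, hf, rfl⟩)

/-- A point of the component at `B` for the flip at `v`, with given free coordinates. -/
theorem exists_flip_point (B : Finset V) {v : V} (hv : v ∉ B) (z : ρ → ball1 K)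
    (hz : ∀ i, ‖(z i : K)‖ < 1) :
    ∃ (x : LCoord κ ρ → ball1 K) (hx : ∀ i, ‖(x i : K)‖ < 1), (∀ i, x (Sum.inr i) = z i) ∧
      RingHom.ker (ev φ x hx) ∈ compPoints ρ D B ∧
      placeSubst v (D v).y ∈ RingHom.ker (ev φ x hx) ∧
      placeSubst v (D v).y' ∉ RingHom.ker (ev φ x hx) ∧
      ∀ w ∈ B, ∃ a ∈ placeSubst (ρ := ρ) w '' (D w).nSet,
        placeSubst w (D w).y' * a ∉ RingHom.ker (ev φ x hx) := by
  classical
  choose p₀ hp₀ hur hy0 hy0' using fun w => (D w).exists_meet
  choose p₁ hp₁ hst hy1 using fun w => (D w).exists_special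
  let x : LCoord κ ρ → ball1 K :=
    Sum.elim (fun wi => if wi.1 ∈ B then p₁ wi.1 wi.2 else p₀ wi.1 wi.2) z
  have hx : ∀ i, ‖(x i : K)‖ < 1 := by
    rintro (⟨w, i⟩ | r)
    · simp only [x, Sum.elim_inl]
      split
      exacts [hp₁ w i, hp₀ w i]
    · exact hz r
  have hx₁ : ∀ w ∈ B, (fun i => x (Sum.inl ⟨w, i⟩)) = p₁ w := fun w hw => by
    funext i; simp [x, hw]
  have hx₀ : ∀ w ∉ B, (fun i => x (Sum.inl ⟨w, i⟩)) = p₀ w := fun w hw => by
    funext i; simp [x, hw]
  refine ⟨x, hx, fun _ => rfl, ⟨x, hx, fun w g hg => ?_, rfl⟩, ?_, ?_, fun w hw => ?_⟩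
  · by_cases hw : w ∈ B
    · rw [hx₁ w hw]; exact hst w g (by rwa [compAt, if_pos hw] at hg)
    · rw [hx₀ w hw]; exact hur w g (by rwa [compAt, if_neg hw] at hg)
  · rw [RingHom.mem_ker, ev_placeSubst]
    exact (ev_congr φ (hx₀ v hv) _ (hp₀ v) _).trans (hy0 v)
  · rw [RingHom.mem_ker, ev_placeSubst]
    exact fun h => hy0' v ((ev_congr φ (hx₀ v hv) _ (hp₀ v) _).symm.trans h)
  · obtain ⟨a, ha, hne⟩ := hy1 w
    refine ⟨placeSubst w a, ⟨a, ha, rfl⟩, ?_⟩
    rw [RingHom.mem_ker, ← map_mul, ev_placeSubst]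
    exact fun h => hne ((ev_congr φ (hx₁ w hw) _ (hp₁ w) _).symm.trans h)

variable [IsDomain O] [IsDiscreteValuationRing O] [IsAdicComplete (maximalIdeal O) O] [IsAlgClosed K]

set_option linter.overlappingInstances false

omit [IsAlgClosed K] in
/-- A prime of full dimension over the relations at `B` has residue characteristic zero. -/
theorem C_notMem_of_dim (B : Finset V) {𝔮 : Ideal (MvPowerSeries (LCoord κ ρ) O)} [𝔮.IsPrime]
    (hrel : placesRel ρ D ⊆ 𝔮) (hn : ∀ v ∉ B, placeSubst (ρ := ρ) v '' (D v).nSet ⊆ 𝔮)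
    (hy : ∀ v ∈ B, placeSubst (ρ := ρ) v (D v).y ∈ 𝔮)
    (hdim : ringKrullDim (MvPowerSeries ((Σ v, Fin (compAt D B v).dim) ⊕ ρ) O) ≤
      ringKrullDim (MvPowerSeries (LCoord κ ρ) O ⧸ 𝔮)) {a : O} (ha : a ≠ 0) : C a ∉ 𝔮 := by
  let c := compAt D B
  have hfin : ((Ideal.Quotient.mk 𝔮).comp (substAlgHom (R := O)
      (hasSubst_of_constantCoeff_zero (constantCoeff_compParam (ρ := ρ) c))).toRingHom).Finite := by
    refine finite_subst (constantCoeff_compParam c) (IsLocalRing.le_maximalIdeal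
      (Ideal.IsPrime.ne_top inferInstance)) fun P hP hqP hθ hC s => ?_
    obtain ⟨v, i⟩ | r := s
    · have hP' := Ideal.IsPrime.comap (K := P) (placeSubst (ρ := ρ) v).toRingHom
      have hpar : ∀ j, ((c v).param j : MvPowerSeries (κ v) O) ∈
          P.comap (placeSubst (ρ := ρ) v).toRingHom := fun j => by
        show placeSubst v _ ∈ P
        rw [placeSubst_coe]
        exact hθ (Sum.inl ⟨v, j⟩)
      have hC' : ∀ d ∈ maximalIdeal O, (C d : MvPowerSeries (κ v) O) ∈
          P.comap (placeSubst (ρ := ρ) v).toRingHom := fun d hd => by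
        show placeSubst v (algebraMap O (MvPowerSeries (κ v) O) d) ∈ P
        rw [AlgHom.commutes]
        exact hC d hd
      have hrel' := mem_of_placesRel_subset D (hrel.trans hqP) v
      rw [show (X (Sum.inl ⟨v, i⟩) : MvPowerSeries (LCoord κ ρ) O) = placeSubst v (X i) by
        rw [placeSubst, substAlgHom_X]]
      by_cases hv : v ∈ B
      · have e : c v = (D v).st := if_pos hv
        rw [e] at hpar
        exact (D v).st_nil _ hP' hrel' (hqP (hy v hv)) hpar hC' i
      · have e : c v = (D v).ur := if_neg hv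
        rw [e] at hpar
        exact (D v).ur_nil _ hP' hrel' (fun f hf => hqP (hn v hv ⟨f, hf, rfl⟩)) hpar hC' i
    · exact hθ (Sum.inr r)
  intro hmem
  refine ha ?_
  have h0 := injective_subst_of_dim _ hfin hdim (a₁ := C a) (a₂ := 0) (by
    rw [map_zero, RingHom.comp_apply, Ideal.Quotient.eq_zero_iff_mem]
    show substAlgHom _ (algebraMap O _ a) ∈ 𝔮
    rw [AlgHom.commutes]
    exact hmem)
  simpa using congrArg (constantCoeff (σ := (Σ v, Fin (c v).dim) ⊕ ρ) (R := O)) h0

/-- **The chain data of a family of places.** -/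
def placesChainData (hφinj : Function.Injective φ) (hφ : ∀ a ∈ maximalIdeal O, ‖(φ a : K)‖ < 1)
    {S : Type*} [CommRing S]
    (hS : ringKrullDim (MvPowerSeries ((Σ v, Fin (D v).ur.dim) ⊕ ρ) O) ≤ ringKrullDim S) :
    ChainData (MvPowerSeries (LCoord κ ρ) O) S V where
  nSet v := placeSubst v '' (D v).nSet
  c v := placeSubst v (D v).c
  T v := placeSubst v (D v).T
  y v := placeSubst v (D v).y
  y' v := placeSubst v (D v).y'
  rel := placesRel ρ D
  points := compPoints ρ D
  y_mul v := by rw [← map_mul, (D v).y_mul, map_sub, map_pow, map_pow]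
  isPrime B P := by
    rintro ⟨x, hx, -, rfl⟩
    exact RingHom.ker_isPrime _
  exists_point B v hv := by
    obtain ⟨x, hx, -, hmem, hy, hy', hN⟩ := exists_flip_point D B hv (fun _ : ρ => 0) (fun _ => by simp)
    exact ⟨_, hmem, hy, hy', hN⟩
  recognition B 𝔮 hprime hdim hrel hn hy := by
    rintro P ⟨x, hx, hxrel, rfl⟩
    have hdim' : ringKrullDim (MvPowerSeries ((Σ v, Fin (compAt D B v).dim) ⊕ ρ) O) ≤
        ringKrullDim (MvPowerSeries (LCoord κ ρ) O ⧸ 𝔮) := by
      rw [hdim]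
      refine le_of_eq_of_le ?_ hS
      exact congrArg (fun d : V → ℕ => ringKrullDim (MvPowerSeries ((Σ v, Fin (d v)) ⊕ ρ) O))
        (funext fun v => compAt_dim D B v)
    have hle : relsIdeal (ρ := ρ) (compAt D B) ≤ 𝔮 := by
      refine relsIdeal_le _ fun v g hg => ?_
      rw [← placeSubst_coe]
      have hconst : ∀ a : O, a ≠ 0 → C a ∉ 𝔮.comap (placeSubst (ρ := ρ) v).toRingHom :=
        fun a ha h => C_notMem_of_dim D B hrel hn hy hdim' ha (by
          have h' : placeSubst v (algebraMap O (MvPowerSeries (κ v) O) a) ∈ 𝔮 := h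
          rwa [AlgHom.commutes] at h')
      by_cases hv : v ∈ B
      · rw [compAt, if_pos hv] at hg
        exact (D v).st_rels (𝔮.comap (placeSubst v).toRingHom) (Ideal.IsPrime.comap _) hconst
          (mem_of_placesRel_subset D hrel v) (hy v hv) g hg
      · rw [compAt, if_neg hv] at hg
        exact (D v).ur_rels (𝔮.comap (placeSubst v).toRingHom) (Ideal.IsPrime.comap _) hconst
          (mem_of_placesRel_subset D hrel v) (fun f hf => hn v hv ⟨f, hf, rfl⟩) g hg
    exact le_ker_ev_of_dim (compAt D B) hφinj hφ hle hdim' x hx hxrel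

end Fermat.Agent.RT.Lift
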