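import Fermat.Agent.RT.Algebra.Limit
import Fermat.Agent.RT.Assembly.Quotient
import Fermat.Agent.RT.Lift.Germ.Finite

/-!
# Limits of matrices over the level quotients along an ultrafilter

A family of `O`-algebra actions of `Λ = O[[σ]]` by matrices over `O[[y]] / levelIdeal n` has a
limit action by matrices over `O[[y]]`; its kernel is `limitAnn`. If every
`(1 + y i) + (1 + y i)⁻¹` is in the image, the limit module is finite over `Λ`.
-/

set_option autoImplicit false

noncomputable section

namespace Fermat.Agent.RT.Lift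

open MvPowerSeries IsLocalRing
open Fermat.Agent.RT.Assembly (levelIdeal levelIdeal_le)
open Fermat.Agent.RT.Algebra (map_eq_zero_of_mem_pow_card exists_ultralimit
  eq_of_eventually_sub_mem finite_residueField_mvPowerSeries)

variable (O : Type) [CommRing O] (r p : ℕ)

/-- The power series ring of the diamond variables. -/
abbrev DiaSeries : Type := MvPowerSeries (Fin r) O

/-- Its quotient of level `n`. -/
abbrev LevelQuot (n : ℕ) : Type := DiaSeries O r ⧸ levelIdeal (ι := Fin r) O p n

variable {O r p}

/-- The reduction to level `n`. -/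
abbrev toLevel (n : ℕ) : DiaSeries O r →+* LevelQuot O r p n := Ideal.Quotient.mk _

variable [IsLocalRing O]

/-- `L` is the limit of the sequence `x` along `U`. -/
def Approx (U : Ultrafilter ℕ) (x : ∀ n, LevelQuot O r p n) (L : DiaSeries O r) : Prop :=
  ∀ k, ∀ᶠ n in (U : Filter ℕ),
    x n - toLevel n L ∈ (maximalIdeal (DiaSeries O r) ^ k).map (toLevel (p := p) n)

/-- Entrywise limits of matrices. -/
def MatApprox (U : Ultrafilter ℕ) {a b : Type} (x : ∀ n, Matrix a b (LevelQuot O r p n))
    (L : Matrix a b (DiaSeries O r)) : Prop :=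
  ∀ i j, Approx U (fun n => x n i j) (L i j)

variable {U : Ultrafilter ℕ}

theorem approx_const (L : DiaSeries O r) : Approx U (fun n => toLevel (p := p) n L) L :=
  fun k => Filter.Eventually.of_forall fun n => by simp

theorem Approx.add {x y : ∀ n, LevelQuot O r p n} {L L' : DiaSeries O r} (hx : Approx U x L)
    (hy : Approx U y L') : Approx U (fun n => x n + y n) (L + L') := fun k => by
  filter_upwards [hx k, hy k] with n hn hn'
  rw [map_add, add_sub_add_comm]
  exact add_mem hn hn'

theorem Approx.sub {x y : ∀ n, LevelQuot O r p n} {L L' : DiaSeries O r} (hx : Approx U x L)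
    (hy : Approx U y L') : Approx U (fun n => x n - y n) (L - L') := fun k => by
  filter_upwards [hx k, hy k] with n hn hn'
  rw [map_sub, sub_sub_sub_comm]
  exact sub_mem hn hn'

theorem Approx.mul {x y : ∀ n, LevelQuot O r p n} {L L' : DiaSeries O r} (hx : Approx U x L)
    (hy : Approx U y L') : Approx U (fun n => x n * y n) (L * L') := fun k => by
  filter_upwards [hx k, hy k] with n hn hn'
  rw [map_mul, show x n * y n - toLevel n L * toLevel n L' =
    (x n - toLevel n L) * y n + toLevel n L * (y n - toLevel n L') by ring]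
  exact add_mem (Ideal.mul_mem_right _ _ hn) (Ideal.mul_mem_left _ _ hn')

theorem Approx.sum {ι : Type} (s : Finset ι) {x : ι → ∀ n, LevelQuot O r p n}
    {L : ι → DiaSeries O r} (h : ∀ i ∈ s, Approx U (x i) (L i)) :
    Approx U (fun n => ∑ i ∈ s, x i n) (∑ i ∈ s, L i) := by
  classical
  induction s using Finset.induction with
  | empty => simpa using approx_const (U := U) (p := p) (0 : DiaSeries O r)
  | @insert a s ha ih =>
    simp only [Finset.sum_insert ha]
    exact (h a (Finset.mem_insert_self a s)).add (ih fun i hi => h i (Finset.mem_insert_of_mem hi))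

theorem MatApprox.mul {a b c : Type} [Fintype b] {x : ∀ n, Matrix a b (LevelQuot O r p n)}
    {y : ∀ n, Matrix b c (LevelQuot O r p n)} {L : Matrix a b (DiaSeries O r)}
    {L' : Matrix b c (DiaSeries O r)} (hx : MatApprox U x L) (hy : MatApprox U y L') :
    MatApprox U (fun n => x n * y n) (L * L') := fun i j => by
  simp only [Matrix.mul_apply]
  exact Approx.sum _ fun l _ => (hx i l).mul (hy l j)

theorem MatApprox.add {a b : Type} {x y : ∀ n, Matrix a b (LevelQuot O r p n)}
    {L L' : Matrix a b (DiaSeries O r)} (hx : MatApprox U x L) (hy : MatApprox U y L') :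
    MatApprox U (fun n => x n + y n) (L + L') := fun i j => (hx i j).add (hy i j)

theorem MatApprox.sub {a b : Type} {x y : ∀ n, Matrix a b (LevelQuot O r p n)}
    {L L' : Matrix a b (DiaSeries O r)} (hx : MatApprox U x L) (hy : MatApprox U y L') :
    MatApprox U (fun n => x n - y n) (L - L') := fun i j => (hx i j).sub (hy i j)

theorem matApprox_scalar {a : Type} [Fintype a] [DecidableEq a] {x : ∀ n, LevelQuot O r p n}
    {L : DiaSeries O r} (hx : Approx U x L) :
    MatApprox U (fun n => Matrix.scalar a (x n)) (Matrix.scalar a L) := fun i j => by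
  rcases eq_or_ne i j with rfl | h
  · simpa using hx
  · simpa [h] using approx_const (U := U) (p := p) (0 : DiaSeries O r)

theorem MatApprox.mulVec {a b : Type} [Fintype b] {x : ∀ n, Matrix a b (LevelQuot O r p n)}
    {L : Matrix a b (DiaSeries O r)} (hx : MatApprox U x L) (u : b → DiaSeries O r) (i : a) :
    Approx U (fun n => (x n).mulVec (toLevel n ∘ u) i) (L.mulVec u i) := by
  simp only [Matrix.mulVec, dotProduct, Function.comp_apply]
  exact Approx.sum _ fun l _ => (hx i l).mul (approx_const (u l))

variable (hp : (p : O) ∈ maximalIdeal O) (hU : ∀ j, ∀ᶠ n in (U : Filter ℕ), j ≤ n)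

include hp in
theorem mem_pow_of_toLevel_mem {n k : ℕ} (hkn : k ≤ n + 1) {f : DiaSeries O r}
    (h : toLevel n f ∈ (maximalIdeal (DiaSeries O r) ^ k).map (toLevel (p := p) n)) :
    f ∈ maximalIdeal (DiaSeries O r) ^ k := by
  rw [← Ideal.mem_comap, Ideal.comap_map_of_surjective _ Ideal.Quotient.mk_surjective,
    ← RingHom.ker_eq_comap_bot, Ideal.mk_ker] at h
  exact (sup_le le_rfl ((levelIdeal_le hp n).trans (Ideal.pow_le_pow_right hkn))) h

variable [IsNoetherianRing O]

include hp hU in
theorem Approx.unique {x : ∀ n, LevelQuot O r p n} {L L' : DiaSeries O r} (hx : Approx U x L)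
    (hy : Approx U x L') : L = L' := by
  refine eq_of_eventually_sub_mem U fun k => ?_
  filter_upwards [hx k, hy k, hU k] with n hn hn' hk
  refine mem_pow_of_toLevel_mem hp (hk.trans n.le_succ) ?_
  have := sub_mem hn' hn
  rwa [sub_sub_sub_cancel_left, ← map_sub] at this

include hp hU in
theorem MatApprox.unique {a b : Type} {x : ∀ n, Matrix a b (LevelQuot O r p n)}
    {L L' : Matrix a b (DiaSeries O r)} (hx : MatApprox U x L) (hy : MatApprox U x L') : L = L' :=
  Matrix.ext fun i j => (hx i j).unique hp hU (hy i j)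

variable [IsAdicComplete (maximalIdeal O) O] [Finite (ResidueField O)]

theorem exists_approx (x : ∀ n, LevelQuot O r p n) : ∃ L, Approx U x L := by
  choose f hf using fun n => Ideal.Quotient.mk_surjective (x n)
  obtain ⟨L, hL⟩ := exists_ultralimit U f
  refine ⟨L, fun k => ?_⟩
  filter_upwards [hL k] with n hn
  rw [← hf, ← map_sub]
  exact Ideal.mem_map_of_mem _ hn

theorem exists_matApprox {a b : Type} (x : ∀ n, Matrix a b (LevelQuot O r p n)) :
    ∃ L, MatApprox U x L := by
  choose L hL using fun i j => exists_approx (U := U) fun n => x n i j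
  exact ⟨Matrix.of L, hL⟩

section Action

variable {σ : Type} {D : ℕ}
  (act : ∀ n, MvPowerSeries σ O →ₐ[O] Matrix (Fin D) (Fin D) (LevelQuot O r p n))

/-- The limit action. -/
def limitAct (U : Ultrafilter ℕ) (hp : (p : O) ∈ maximalIdeal O)
    (hU : ∀ j, ∀ᶠ n in (U : Filter ℕ), j ≤ n) :
    MvPowerSeries σ O →+* Matrix (Fin D) (Fin D) (DiaSeries O r) where
  toFun f := (exists_matApprox (U := U) fun n => act n f).choose
  map_one' := by
    refine (exists_matApprox (U := U) fun n => act n 1).choose_spec.unique hp hU fun i j => ?_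
    simp only [map_one, Matrix.one_apply]
    split_ifs
    · simpa using approx_const (U := U) (p := p) (1 : DiaSeries O r)
    · simpa using approx_const (U := U) (p := p) (0 : DiaSeries O r)
  map_mul' f g := (exists_matApprox (U := U) fun n => act n (f * g)).choose_spec.unique hp hU (by
    simp only [map_mul]
    exact (exists_matApprox fun n => act n f).choose_spec.mul
      (exists_matApprox fun n => act n g).choose_spec)
  map_zero' := by
    refine (exists_matApprox (U := U) fun n => act n 0).choose_spec.unique hp hU fun i j => ?_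
    simpa using approx_const (U := U) (p := p) (0 : DiaSeries O r)
  map_add' f g := (exists_matApprox (U := U) fun n => act n (f + g)).choose_spec.unique hp hU (by
    simp only [map_add]
    exact (exists_matApprox fun n => act n f).choose_spec.add
      (exists_matApprox fun n => act n g).choose_spec)

theorem limitAct_spec (f : MvPowerSeries σ O) :
    MatApprox U (fun n => act n f) (limitAct act U hp hU f) :=
  (exists_matApprox (U := U) fun n => act n f).choose_spec

/-- The series acting as zero in the limit. -/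
def limitAnn (U : Ultrafilter ℕ) (hp : (p : O) ∈ maximalIdeal O)
    (hU : ∀ j, ∀ᶠ n in (U : Filter ℕ), j ≤ n) : Ideal (MvPowerSeries σ O) :=
  RingHom.ker (limitAct act U hp hU)

theorem mem_limitAnn_of_forall {f : MvPowerSeries σ O} (h : ∀ n, act n f = 0) :
    f ∈ limitAnn act U hp hU :=
  (limitAct_spec hp hU act f).unique hp hU fun i j => by
    simpa [h] using approx_const (U := U) (p := p) (0 : DiaSeries O r)

theorem limitAct_C (c : O) : limitAct act U hp hU (C c) = Matrix.scalar _ (C c) :=
  (limitAct_spec hp hU act (C c)).unique hp hU fun i j => by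
    have h : ∀ n, act n (C c) = Matrix.scalar (Fin D) (toLevel n (C c)) := fun n => by
      rw [show (C c : MvPowerSeries σ O) = algebraMap O _ c from rfl, AlgHom.commutes,
        Matrix.algebraMap_eq_diagonal]
      rfl
    simp only [h]
    exact matApprox_scalar (approx_const _) i j

variable [Finite σ]

omit [Finite σ] in
/-- A sequence tending to `x₀` has the same image in the limit. -/
theorem matApprox_act {x : ℕ → MvPowerSeries σ O} {x₀ : MvPowerSeries σ O}
    (hx : ∀ k, ∀ᶠ n in (U : Filter ℕ), x n - x₀ ∈ maximalIdeal (MvPowerSeries σ O) ^ k) :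
    MatApprox U (fun n => act n (x n)) (limitAct act U hp hU x₀) := fun i j k => by
  have : Finite (ResidueField (DiaSeries O r)) := finite_residueField_mvPowerSeries
  have : Finite (DiaSeries O r ⧸ maximalIdeal (DiaSeries O r) ^ k) :=
    Fermat.Agent.RT.Algebra.finite_quotient_pow k
  set N := Nat.card (Matrix (Fin D) (Fin D) (DiaSeries O r ⧸ maximalIdeal (DiaSeries O r) ^ k))
  filter_upwards [hx N, limitAct_spec hp hU act x₀ i j k] with n hn hn'
  set J := (maximalIdeal (DiaSeries O r) ^ k).map (toLevel (p := p) n)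
  let g : DiaSeries O r ⧸ maximalIdeal (DiaSeries O r) ^ k →+* LevelQuot O r p n ⧸ J :=
    Ideal.quotientMap J (toLevel n) Ideal.le_comap_map
  have hg : Function.Surjective g :=
    Ideal.quotientMap_surjective Ideal.Quotient.mk_surjective
  have : Finite (LevelQuot O r p n ⧸ J) := Finite.of_surjective g hg
  let h : MvPowerSeries σ O →+* Matrix (Fin D) (Fin D) (LevelQuot O r p n ⧸ J) :=
    (Ideal.Quotient.mk J).mapMatrix.comp (act n).toRingHom
  have hle : Nat.card (Matrix (Fin D) (Fin D) (LevelQuot O r p n ⧸ J)) ≤ N :=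
    Nat.card_le_card_of_surjective (fun M => M.map g) fun M => ⟨M.map (Function.surjInv hg),
      Matrix.ext fun a b => Function.surjInv_eq hg _⟩
  have h0 : h (x n - x₀) = 0 := map_eq_zero_of_mem_pow_card h (Ideal.pow_le_pow_right hle hn)
  have hmem : act n (x n) i j - act n x₀ i j ∈ J := by
    rw [← Ideal.Quotient.eq_zero_iff_mem, ← Matrix.sub_apply, ← map_sub]
    exact congrFun (congrFun h0 i) j
  simpa using add_mem hmem hn'

omit [Finite σ] in
/-- A limit of points. -/
theorem exists_limit_point (ψ : ℕ → MvPowerSeries σ O →ₐ[O] O) :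
    ∃ ψ₀ : MvPowerSeries σ O →+* O, (∀ c, ψ₀ (C c) = c) ∧
      ∀ (x : ℕ → MvPowerSeries σ O) (x₀ : MvPowerSeries σ O),
        (∀ k, ∀ᶠ n in (U : Filter ℕ), x n - x₀ ∈ maximalIdeal (MvPowerSeries σ O) ^ k) →
        ∀ k, ∀ᶠ n in (U : Filter ℕ), ψ n (x n) - ψ₀ x₀ ∈ maximalIdeal O ^ k := by
  have hlim : ∀ a : ℕ → O, ∃ l, ∀ k, ∀ᶠ n in (U : Filter ℕ), a n - l ∈ maximalIdeal O ^ k := by
    intro a
    obtain ⟨L, hL⟩ := exists_ultralimit U fun n => (C (a n) : MvPowerSeries (Fin 0) O)
    refine ⟨constantCoeff L, fun k => ?_⟩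
    filter_upwards [hL k] with n hn
    have hle : (maximalIdeal (MvPowerSeries (Fin 0) O)).map constantCoeff ≤ maximalIdeal O := by
      rw [Ideal.map_le_iff_le_comap]
      exact fun f hf => (IsLocalRing.mem_maximalIdeal _).mpr fun h =>
        (IsLocalRing.mem_maximalIdeal f).mp hf (MvPowerSeries.isUnit_iff_constantCoeff.mpr h)
    have := Ideal.pow_right_mono hle k (by
      rw [← Ideal.map_pow]
      exact Ideal.mem_map_of_mem constantCoeff hn)
    simpa using this
  choose l hl using fun f => hlim fun n => ψ n f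
  have huniq : ∀ {a : ℕ → O} {u v : O}, (∀ k, ∀ᶠ n in (U : Filter ℕ), a n - u ∈ maximalIdeal O ^ k) →
      (∀ k, ∀ᶠ n in (U : Filter ℕ), a n - v ∈ maximalIdeal O ^ k) → u = v := fun {a u v} hu hv => by
    refine sub_eq_zero.mp (IsHausdorff.haus' (I := maximalIdeal O) _ fun k => ?_)
    obtain ⟨n, hn, hn'⟩ := ((hu k).and (hv k)).exists
    rw [SModEq.zero, smul_eq_mul, Ideal.mul_top]
    simpa using sub_mem hn' hn
  have hC : ∀ c, l (C c) = c := fun c => huniq (hl (C c)) fun k => Filter.Eventually.of_forall
    fun n => by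
      rw [show (C c : MvPowerSeries σ O) = algebraMap O _ c from rfl, AlgHom.commutes]
      simp
  refine ⟨{ toFun := l
            map_one' := by simpa using hC 1
            map_zero' := by simpa using hC 0
            map_mul' := fun f g => huniq (hl (f * g)) fun k => ?_
            map_add' := fun f g => huniq (hl (f + g)) fun k => ?_ }, hC, fun x x₀ hx k => ?_⟩
  · filter_upwards [hl f k, hl g k] with n hn hn'
    rw [map_mul, show ψ n f * ψ n g - l f * l g =
      (ψ n f - l f) * ψ n g + l f * (ψ n g - l g) by ring]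
    exact add_mem (Ideal.mul_mem_right _ _ hn) (Ideal.mul_mem_left _ _ hn')
  · filter_upwards [hl f k, hl g k] with n hn hn'
    rw [map_add, add_sub_add_comm]
    exact add_mem hn hn'
  · have := Fermat.Agent.RT.Algebra.finite_quotient_pow (O := O) k
    filter_upwards [hx (Nat.card (O ⧸ maximalIdeal O ^ k)), hl x₀ k] with n hn hn'
    have h0 : Ideal.Quotient.mk (maximalIdeal O ^ k) (ψ n (x n - x₀)) = 0 :=
      map_eq_zero_of_mem_pow_card ((Ideal.Quotient.mk _).comp (ψ n).toRingHom) hn
    rw [Ideal.Quotient.eq_zero_iff_mem, map_sub] at h0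
    simpa using add_mem h0 hn'

omit [IsLocalRing O] [IsNoetherianRing O] [IsAdicComplete (maximalIdeal O) O]
  [Finite (ResidueField O)] in
/-- Generators along a finite ring map. -/
theorem exists_generators {A B : Type} [CommRing A] [CommRing B] (f : A →+* B) (hf : f.Finite) :
    ∃ (m : ℕ) (G : Fin m → B), ∀ b, ∃ s : Fin m → A, b = ∑ g, f (s g) * G g := by
  let _ := f.toAlgebra
  have : Module.Finite A B := hf
  obtain ⟨m, G, hG⟩ := Module.Finite.exists_fin (R := A) (M := B)
  refine ⟨m, G, fun b => ?_⟩
  obtain ⟨s, hs⟩ := (Submodule.mem_span_range_iff_exists_fun A).mp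
    (hG.ge (Submodule.mem_top (x := b)))
  exact ⟨s, hs.symm⟩

omit [Finite σ] in
/-- Polynomials in elements acting as scalars act as scalars. -/
theorem limitAct_aeval {ι : Type} {c : ι → MvPowerSeries σ O} {w : ι → DiaSeries O r}
    (hc : ∀ i, limitAct act U hp hU (c i) = Matrix.scalar (Fin D) (w i)) (P : MvPolynomial ι O) :
    limitAct act U hp hU (MvPolynomial.aeval c P) = Matrix.scalar (Fin D) (MvPolynomial.aeval w P) := by
  induction P using MvPolynomial.induction_on with
  | C a =>
    rw [MvPolynomial.aeval_C, MvPolynomial.aeval_C]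
    exact limitAct_C hp hU act a
  | add P Q hP hQ => simp only [map_add, hP, hQ]
  | mul_X P i hP => simp only [map_mul, MvPolynomial.aeval_X, hP, hc]

omit [IsLocalRing O] [IsNoetherianRing O] [IsAdicComplete (maximalIdeal O) O]
  [Finite (ResidueField O)] [Finite σ] in
theorem substAlgHom_coe_eq {ι τ : Type} {w : ι → MvPowerSeries τ O} (hw : HasSubst w)
    (P : MvPolynomial ι O) :
    substAlgHom hw (P : MvPowerSeries ι O) = MvPolynomial.aeval w P := by
  induction P using MvPolynomial.induction_on with
  | C a =>
    rw [MvPolynomial.coe_C, MvPolynomial.aeval_C]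
    exact (substAlgHom hw).commutes a
  | add P Q hP hQ => rw [MvPolynomial.coe_add, map_add, map_add, hP, hQ]
  | mul_X P i hP =>
    rw [MvPolynomial.coe_mul, MvPolynomial.coe_X, map_mul, map_mul, hP, substAlgHom_X,
      MvPolynomial.aeval_X]


/-- The variables `(1 + y) + (1 + y)⁻¹ - 2`. -/
def zSeries (i : Fin r) : DiaSeries O r := X i ^ 2 * MvPowerSeries.invOfUnit (1 + X i) 1

omit [IsLocalRing O] [IsNoetherianRing O] [IsAdicComplete (maximalIdeal O) O]
  [Finite (ResidueField O)] in
theorem one_add_X_mul_inv (i : Fin r) :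
    (1 + X i : DiaSeries O r) * MvPowerSeries.invOfUnit (1 + X i) 1 = 1 :=
  MvPowerSeries.mul_invOfUnit _ _ (by simp)

omit [IsLocalRing O] [IsNoetherianRing O] [IsAdicComplete (maximalIdeal O) O]
  [Finite (ResidueField O)] in
theorem constantCoeff_zSeries (i : Fin r) : constantCoeff (zSeries (O := O) i) = 0 := by
  simp [zSeries]

omit [Finite (ResidueField O)] in
theorem finite_subst_zSeries :
    (substAlgHom (R := O) (hasSubst_of_constantCoeff_zero
      (constantCoeff_zSeries (O := O) (r := r)))).toRingHom.Finite := by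
  have h := finite_subst (constantCoeff_zSeries (O := O) (r := r))
    (J := (⊥ : Ideal (DiaSeries O r))) bot_le fun P hP _ hθ _ i => by
      refine hP.mem_of_pow_mem 2 ?_
      have := P.mul_mem_right (1 + X i) (hθ i)
      rwa [zSeries, mul_assoc, mul_comm (MvPowerSeries.invOfUnit _ _), one_add_X_mul_inv,
        mul_one] at this
  let e := RingEquiv.quotientBot (DiaSeries O r)
  have h' := (RingHom.Finite.of_surjective e.toRingHom e.surjective).comp h
  rwa [← RingHom.comp_assoc, show e.toRingHom.comp (Ideal.Quotient.mk (⊥ : Ideal (DiaSeries O r))) =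
    RingHom.id _ from RingHom.ext fun _ => rfl, RingHom.id_comp] at h'

omit [Finite σ] in
/-- A sequence of solutions of the quadratic relation tends to a lift of `z + 2`. -/
theorem limitAct_quad {i : Fin r} {a : ℕ → MvPowerSeries σ O} {a₀ : MvPowerSeries σ O}
    (ha : ∀ n, Matrix.scalar (Fin D) ((1 + toLevel (O := O) (r := r) (p := p) n (X i)) ^ 2 + 1) =
      Matrix.scalar (Fin D) (1 + toLevel (O := O) (r := r) (p := p) n (X i)) * act n (a n))
    (ha₀ : ∀ k, ∀ᶠ n in (U : Filter ℕ), a n - a₀ ∈ maximalIdeal (MvPowerSeries σ O) ^ k) :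
    limitAct act U hp hU (a₀ - 2) = Matrix.scalar (Fin D) (zSeries i) := by
  have h1 : MatApprox U (fun n => Matrix.scalar (Fin D) (toLevel (p := p) n (1 + X i : DiaSeries O r)))
      (Matrix.scalar (Fin D) (1 + X i)) := matApprox_scalar (approx_const _)
  have h2 := h1.mul (matApprox_act hp hU act (x := a) ha₀)
  have h3 : MatApprox U (fun n => Matrix.scalar (Fin D)
      (toLevel (p := p) n ((1 + X i) ^ 2 + 1 : DiaSeries O r)))
      (Matrix.scalar (Fin D) ((1 + X i) ^ 2 + 1)) := matApprox_scalar (approx_const _)
  have key : Matrix.scalar (Fin D) (1 + X i : DiaSeries O r) * limitAct act U hp hU a₀ =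
      Matrix.scalar (Fin D) ((1 + X i) ^ 2 + 1) := by
    refine MatApprox.unique hp hU h2 ?_
    have e : ∀ n, Matrix.scalar (Fin D) (toLevel (p := p) n (1 + X i : DiaSeries O r)) *
        act n (a n) =
        Matrix.scalar (Fin D) (toLevel (p := p) n ((1 + X i) ^ 2 + 1 : DiaSeries O r)) := fun n => by
      rw [map_add (toLevel n) (_ ^ 2), map_pow (toLevel n), map_add (toLevel n) 1,
        map_one (toLevel n)]
      exact (ha n).symm
    simp only [e]
    exact h3
  have hinv := congrArg (Matrix.scalar (Fin D) (MvPowerSeries.invOfUnit (1 + X i) 1) * ·) key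
  simp only [← mul_assoc, ← map_mul, mul_comm (MvPowerSeries.invOfUnit _ _), one_add_X_mul_inv,
    map_one, one_mul] at hinv
  rw [map_sub, hinv, show (2 : MvPowerSeries σ O) = C 2 from (map_ofNat C 2).symm, limitAct_C,
    map_ofNat, ← map_sub]
  refine congrArg _ ?_
  rw [zSeries]
  linear_combination (2 : DiaSeries O r) * one_add_X_mul_inv (O := O) i

variable (hquad : ∀ n (i : Fin r), ∃ a,
  Matrix.scalar (Fin D) ((1 + toLevel (O := O) (r := r) (p := p) n (X i)) ^ 2 + 1) =
    Matrix.scalar (Fin D) (1 + toLevel (O := O) (r := r) (p := p) n (X i)) * act n a)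
include hquad

/-- The variables `z` come from `Λ` in the limit. -/
theorem exists_limit_quad : ∃ c : Fin r → MvPowerSeries σ O,
    ∀ i, limitAct act U hp hU (c i) = Matrix.scalar _ (zSeries i) := by
  choose a ha using hquad
  choose c₀ hc₀ using fun i => exists_ultralimit U fun n => a n i
  exact ⟨fun i => c₀ i - 2,
    fun i => limitAct_quad hp hU act (a := fun n => a n i) (fun n => ha n i) (hc₀ i)⟩

/-- The limit module is finite over `Λ`. -/
theorem finite_limit :
    letI := Module.compHom (Fin D → DiaSeries O r)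
      ((Matrix.toLinAlgEquiv' (R := DiaSeries O r) (n := Fin D)).toRingEquiv.toRingHom.comp
        (limitAct act U hp hU))
    Module.Finite (MvPowerSeries σ O) (Fin D → DiaSeries O r) := by
  classical
  let _ := Module.compHom (Fin D → DiaSeries O r)
    ((Matrix.toLinAlgEquiv' (R := DiaSeries O r) (n := Fin D)).toRingEquiv.toRingHom.comp
      (limitAct act U hp hU))
  obtain ⟨c, hc⟩ := exists_limit_quad hp hU act hquad
  let Z := DiaSeries O r
  let sub := substAlgHom (R := O) (hasSubst_of_constantCoeff_zero
    (constantCoeff_zSeries (O := O) (r := r)))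
  obtain ⟨m, G, hcoord⟩ := exists_generators sub.toRingHom finite_subst_zSeries
  refine ⟨⟨(Finset.univ : Finset (Fin m × Fin D)).image fun gj =>
    (Pi.single gj.2 (G gj.1) : Fin D → DiaSeries O r), eq_top_iff.mpr fun u _ => ?_⟩⟩
  choose s hs using fun j => hcoord (u j)
  -- polynomials in `z` come from `Λ`
  have hpoly : ∀ P : MvPolynomial (Fin r) O, limitAct act U hp hU (MvPolynomial.aeval c P) =
      Matrix.scalar (Fin D) (sub (P : Z)) := by
    intro P
    rw [limitAct_aeval hp hU act hc, substAlgHom_coe_eq]
  have hsubm : ∀ f ∈ maximalIdeal Z, sub f ∈ maximalIdeal (DiaSeries O r) := by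
    intro f hf
    have hf0 : constantCoeff f ∈ maximalIdeal O := (IsLocalRing.mem_maximalIdeal _).mpr fun h =>
      (IsLocalRing.mem_maximalIdeal f).mp hf (MvPowerSeries.isUnit_iff_constantCoeff.mpr h)
    obtain ⟨g, hg⟩ := Ideal.mem_span_range_iff_exists_fun.mp (Patching.sub_C_mem_span_range_X f)
    rw [show f = ∑ i, g i * X i + C (constantCoeff f) by rw [hg]; ring, map_add, map_sum]
    refine add_mem (sum_mem fun i _ => ?_) ?_
    · rw [map_mul, substAlgHom_X]
      refine Ideal.mul_mem_left _ _ ((IsLocalRing.mem_maximalIdeal _).mpr fun h => ?_)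
      simpa [constantCoeff_zSeries] using MvPowerSeries.isUnit_iff_constantCoeff.mp h
    · rw [show (C (constantCoeff f) : Z) = algebraMap O Z (constantCoeff f) from rfl, AlgHom.commutes]
      exact (IsLocalRing.mem_maximalIdeal _).mpr fun h => (IsLocalRing.mem_maximalIdeal _).mp hf0
        (by
          have h' := MvPowerSeries.isUnit_iff_constantCoeff.mp h
          rwa [show (algebraMap O (DiaSeries O r)) (constantCoeff f) = C (constantCoeff f) from rfl,
            constantCoeff_C] at h')
  have hnear : ∀ n g j, sub (s j g) - sub (truncTotal n (s j g) : Z) ∈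
      maximalIdeal (DiaSeries O r) ^ n := by
    intro n g j
    rw [← map_sub]
    have hmem : s j g - (truncTotal n (s j g) : Z) ∈ maximalIdeal Z ^ n :=
      Fermat.Agent.RT.Algebra.mem_pow_maximalIdeal fun d hd => by
        rw [map_sub, MvPolynomial.coeff_coe, coeff_truncTotal _ hd, sub_self]
        exact zero_mem _
    have hle : (maximalIdeal Z).map sub.toRingHom ≤ maximalIdeal (DiaSeries O r) :=
      Ideal.map_le_iff_le_comap.mpr hsubm
    have h2 := Ideal.mem_map_of_mem sub.toRingHom hmem
    rw [Ideal.map_pow] at h2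
    exact Ideal.pow_right_mono hle n h2
  choose a₀ ha₀ using fun g j => exists_ultralimit U fun n => MvPolynomial.aeval c (truncTotal n (s j g))
  have key : u = ∑ j, ∑ g : Fin m, a₀ g j • (Pi.single j (G g) : Fin D → DiaSeries O r) := by
    funext l
    refine eq_of_eventually_sub_mem U fun k => ?_
    have : Finite (ResidueField (DiaSeries O r)) := finite_residueField_mvPowerSeries
    have : Finite (DiaSeries O r ⧸ maximalIdeal (DiaSeries O r) ^ k) :=
      Fermat.Agent.RT.Algebra.finite_quotient_pow k
    let q := Ideal.Quotient.mk (maximalIdeal (DiaSeries O r) ^ k)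
    have hev : ∀ᶠ n in (U : Filter ℕ), k ≤ n ∧ ∀ g j,
        MvPolynomial.aeval c (truncTotal n (s j g)) - a₀ g j ∈ maximalIdeal (MvPowerSeries σ O) ^
          Nat.card (Matrix (Fin D) (Fin D) (DiaSeries O r ⧸ maximalIdeal (DiaSeries O r) ^ k)) := by
      refine (hU k).and ?_
      simp only [Filter.eventually_all]
      exact fun g j => ha₀ g j _
    filter_upwards [hev] with n ⟨hkn, hn⟩
    refine Ideal.Quotient.eq.mp ?_
    have hterm : ∀ g j, q ((a₀ g j • (Pi.single j (G g) : Fin D → DiaSeries O r)) l) =
        q ((Pi.single j (sub (s j g) * G g) : Fin D → DiaSeries O r) l) := by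
      intro g j
      have h0 : q.mapMatrix (limitAct act U hp hU (a₀ g j)) =
          q.mapMatrix (Matrix.scalar (Fin D) (sub (s j g))) := by
        have h1 := map_eq_zero_of_mem_pow_card (q.mapMatrix.comp (limitAct act U hp hU)) (hn g j)
        rw [RingHom.comp_apply, map_sub, map_sub, sub_eq_zero, hpoly] at h1
        rw [← h1]
        refine Matrix.ext fun x y => ?_
        rcases eq_or_ne x y with rfl | hxy
        · simpa [q] using (Ideal.Quotient.eq.mpr
            (Ideal.pow_le_pow_right hkn (hnear n g j))).symm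
        · simp [hxy]
      show q ((limitAct act U hp hU (a₀ g j)).mulVec (Pi.single j (G g)) l) = _
      rw [Matrix.mulVec_single, Pi.smul_apply, MulOpposite.smul_eq_mul_unop, MulOpposite.unop_op,
        map_mul, Matrix.col_apply, show q (limitAct act U hp hU (a₀ g j) l j) = _ from
          congrFun (congrFun h0 l) j]
      rcases eq_or_ne l j with rfl | hlj
      · simp [Matrix.scalar_apply]
      · simp [Matrix.scalar_apply, hlj]
    rw [Finset.sum_apply, map_sum, Finset.sum_eq_single l]
    · rw [Finset.sum_apply, map_sum, hs l, map_sum]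
      exact Finset.sum_congr rfl fun g _ => (by rw [hterm, Pi.single_eq_same]; rfl)
    · intro j _ hj
      rw [Finset.sum_apply, map_sum]
      exact Finset.sum_eq_zero fun g _ => by rw [hterm, Pi.single_eq_of_ne hj.symm, map_zero]
    · simp
  rw [key]
  exact Submodule.sum_mem _ fun j _ => Submodule.sum_mem _ fun g _ => Submodule.smul_mem _ _
    (Submodule.subset_span (Finset.mem_coe.mpr (Finset.mem_image.mpr
      ⟨(g, j), Finset.mem_univ _, rfl⟩)))

end Action

end Fermat.Agent.RT.Lift
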