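import Fermat.Agent.RT.Lift.Germ.Data

/-!
# The data of a place whose components are lines

Coordinates `0 = x = T - ε (q + 1)` and `(1, 2, 3) = (a, b, e)` of the monodromy in an eigenbasis
of Frobenius, with the relations `a = 0`, `x b = 0`, `(T + ε (q + 1)) e = 0` and `b e = 0`.
-/

set_option autoImplicit false

noncomputable section

namespace Fermat.Agent.RT.Lift

open IsLocalRing MvPowerSeries Fermat.Agent.RT.Germ

variable {O : Type} [CommRing O]

/-- A single coordinate as an embedding. -/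
def lineEmb (i : Fin 4) : Fin 1 ↪ Fin 4 := ⟨fun _ => i, fun _ _ _ => Subsingleton.elim _ _⟩

theorem notMem_range_lineEmb {i j : Fin 4} (h : j ≠ i) : j ∉ Set.range (lineEmb i) := by
  rintro ⟨_, rfl⟩
  exact h rfl

variable [IsLocalRing O] [IsDomain O] {K : Type*} [NontriviallyNormedField K] [IsUltrametricDist K]
  [CompleteSpace K] {φ : O →+* ball1 K} {q ε : O}

/-- The special component: `x = a = e = 0`, with parameter `b + e`. -/
def lineStComp (hφ : ∀ c ∈ maximalIdeal O, ‖(φ c : K)‖ < 1) : LocalComp φ (Fin 4) :=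
  { fixedComp hφ (lineEmb 2) (fun _ => 0) fun _ => zero_mem _ with
    param := fun _ => MvPolynomial.X 2 + MvPolynomial.X 3
    param_const := fun _ => by simp
    nil := fun {B} _ f P hP hrels hpar hC i => by
      have hfix : ∀ j : Fin 4, j ≠ 2 → f (MvPolynomial.X j) ∈ P := fun j hj => by
        simpa using hrels _ ⟨j, notMem_range_lineEmb hj, rfl⟩
      by_cases hi : i = 2
      · subst hi
        have h := P.sub_mem (hpar (0 : Fin 1)) (hfix 3 (by decide))
        rwa [map_add, add_sub_cancel_right] at h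
      · exact hfix i hi }

/-- **The data of a line place.** -/
def linePlace (hφinj : Function.Injective φ) (hφ : ∀ c ∈ maximalIdeal O, ‖(φ c : K)‖ < 1)
    (h2 : (2 : O) ≠ 0) (hq : q + 1 ≠ 0) (hε : ε ^ 2 = 1) : PlaceData φ (Fin 4) where
  ur := fixedComp hφ (lineEmb 0) (fun _ => 0) fun _ => zero_mem _
  st := lineStComp hφ
  dim_eq := rfl
  rel := {X 1, X 0 * X 2, (X 0 + C (2 * ε * (q + 1))) * X 3, X 2 * X 3}
  nSet := {X 1, X 2, X 3}
  c := C (q + 1)
  T := X 0 + C (ε * (q + 1))
  y := X 0
  y' := X 0 + C (2 * ε * (q + 1))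
  y_mul := by
    have e : (C ε : MvPowerSeries (Fin 4) O) ^ 2 = 1 := by rw [← map_pow, hε, map_one]
    simp only [map_mul, map_ofNat]
    linear_combination (-(C (q + 1) : MvPowerSeries (Fin 4) O) ^ 2) * e
  ur_nil P _ _ hn hpar _ i := by
    fin_cases i
    · have := hpar (0 : Fin 1)
      rwa [show (fixedComp hφ (lineEmb 0) (fun _ => (0 : O)) fun _ => zero_mem _).param (0 : Fin 1) =
        MvPolynomial.X 0 from rfl, MvPolynomial.coe_X] at this
    all_goals exact hn (by simp)
  st_nil P hP hrel hy hpar _ i := by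
    have hbe : X 2 + X 3 ∈ P := by
      have := hpar (0 : Fin 1)
      rwa [show (lineStComp hφ).param (0 : Fin 1) = MvPolynomial.X 2 + MvPolynomial.X 3 from rfl,
        MvPolynomial.coe_add, MvPolynomial.coe_X, MvPolynomial.coe_X] at this
    fin_cases i
    · exact hy
    · exact hrel (by simp)
    · exact (hP.mem_or_mem (hrel (show X 2 * X 3 ∈ _ by simp))).elim id fun h => by
        simpa using P.sub_mem hbe h
    · exact (hP.mem_or_mem (hrel (show X 2 * X 3 ∈ _ by simp))).elim
        (fun h => by simpa using P.sub_mem hbe h) id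
  ur_rels P _ _ _ hn := by
    rintro _ ⟨i, hi, rfl⟩
    fin_cases i
    · exact absurd ⟨0, rfl⟩ hi
    all_goals simpa using hn (by simp)
  st_rels P hP hconst hrel hy := by
    rintro _ ⟨i, hi, rfl⟩
    fin_cases i
    · simpa using hy
    · simpa using hrel (Or.inl rfl)
    · exact absurd ⟨0, rfl⟩ hi
    · have h : (X 0 + C (2 * ε * (q + 1))) * X 3 ∈ P := hrel (by simp)
      rw [add_mul] at h
      have h' := (P.add_mem_iff_right (P.mul_mem_right _ hy)).mp h
      simpa using (hP.mem_or_mem h').resolve_left (hconst _ (mul_ne_zero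
        (mul_ne_zero h2 fun h0 => by simp [h0] at hε) hq))
  exists_meet := by
    refine ⟨fun _ => 0, fun _ => by simp, ?_, by rw [ev_X], ?_⟩
    · rintro _ ⟨i, -, rfl⟩
      simp
    · rw [map_add, ev_X, ev_C, zero_add]
      exact (map_ne_zero_iff φ hφinj).mpr
        (mul_ne_zero (mul_ne_zero h2 fun h0 => by simp [h0] at hε) hq)
  exists_special := by
    obtain ⟨π, hπ0, hπ1⟩ := NormedField.exists_norm_lt_one K
    let pt : Fin 4 → ball1 K := ![0, 0, ⟨π, hπ1.le⟩, 0]
    have hpt : ∀ i, ‖(pt i : K)‖ < 1 := fun i => by fin_cases i <;> simp [pt, hπ1]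
    refine ⟨pt, hpt, ?_, X 2, by simp, ?_⟩
    · rintro _ ⟨i, hi, rfl⟩
      fin_cases i
      · simp [pt]
      · simp [pt]
      · exact absurd ⟨0, rfl⟩ hi
      · simp [pt]
    · rw [map_mul, map_add, ev_X, ev_X, ev_C, show pt 0 = 0 from rfl, zero_add]
      refine mul_ne_zero ((map_ne_zero_iff φ hφinj).mpr
        (mul_ne_zero (mul_ne_zero h2 fun h0 => by simp [h0] at hε) hq)) fun h0 => ?_
      exact hπ0.ne' (by simpa [pt] using congrArg (fun x : ball1 K => ‖(x : K)‖) h0)

end Fermat.Agent.RT.Lift
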