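import Fermat.Agent.RT.Lift.Germ.Component

/-!
# The local components: prescribed coordinates, and the Steinberg component at a scalar place

`fixedComp` fixes some coordinates and frees the others. `steinbergComp h` is, in coordinates
`(a, b, e)` of the traceless nilpotent `N` and `(s, t, r)` of the traceless part `D` of Frobenius,
the component `N ^ 2 = 0`, `- det D = h ^ 2`, `D N = h N`. Every point of it is joined to the
germ at `D = diag(h, -h)`, `N` upper triangular by a polynomial arc.
-/

set_option autoImplicit false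

noncomputable section

namespace Fermat.Agent.RT.Lift

open IsLocalRing Fermat.Agent.RT.Germ MvPolynomial

variable {K : Type*} [NontriviallyNormedField K] [IsUltrametricDist K]
  {O : Type} [CommRing O] [IsLocalRing O] {φ : O →+* ball1 K}

section Fixed

variable {κ : Type} {d : ℕ} (hφ : ∀ c ∈ maximalIdeal O, ‖(φ c : K)‖ < 1)
  (e : Fin d ↪ κ) (a : κ → O) (ha : ∀ i, a i ∈ maximalIdeal O)

/-- The component on which the coordinates outside the range of `e` take the values `a`. -/
def fixedComp : LocalComp φ κ where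
  dim := d
  rels := (fun i => X i - C (a i)) '' {i | i ∉ Set.range e}
  germ := Function.extend e X fun i => C (φ (a i))
  germ_small i := by
    by_cases hi : ∃ j, e j = i
    · obtain ⟨j, rfl⟩ := hi
      simp [e.injective.extend_apply]
    · rw [Function.extend_apply' _ _ _ hi, constantCoeff_C]
      exact hφ _ (ha i)
  rels_germ := by
    rintro _ ⟨i, hi, rfl⟩ b -
    rw [eval₂_sub, eval₂_X, eval₂_C, Function.extend_apply' _ _ _ hi, eval_C, sub_self]
  rels_const := by
    rintro _ ⟨i, -, rfl⟩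
    simpa using ha i
  param j := X (e j)
  param_const j := constantCoeff_X _ _
  nil f P _ hrels hpar hC i := by
    by_cases hi : i ∈ Set.range e
    · obtain ⟨j, rfl⟩ := hi
      exact hpar j
    · have := P.add_mem (hrels _ ⟨i, hi, rfl⟩) (hC _ (ha i))
      rwa [map_sub, sub_add_cancel] at this
  reach S _ hgerm pt hpt hrel := by
    have h := hgerm (fun j => pt (e j)) fun j => hpt _
    convert h using 1
    funext i
    by_cases hi : i ∈ Set.range e
    · obtain ⟨j, rfl⟩ := hi
      rw [e.injective.extend_apply, eval_X]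
    · rw [Function.extend_apply' _ _ _ hi, eval_C]
      have := hrel _ ⟨i, hi, rfl⟩
      rwa [eval₂_sub, eval₂_X, eval₂_C, sub_eq_zero] at this

end Fixed

section Steinberg

variable (h : O)

/-- The relations of the Steinberg component at a scalar place. -/
def steinbergRels : Set (MvPolynomial (Fin 2 × Fin 3) O) :=
  {X (0, 0) ^ 2 + X (0, 1) * X (0, 2),
    X (1, 0) ^ 2 + X (1, 1) * X (1, 2) - C h ^ 2,
    X (1, 0) * X (0, 0) + X (1, 1) * X (0, 2) - C h * X (0, 0),
    X (1, 0) * X (0, 1) - X (1, 1) * X (0, 0) - C h * X (0, 1),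
    X (1, 2) * X (0, 0) - X (1, 0) * X (0, 2) - C h * X (0, 2),
    X (1, 2) * X (0, 1) + X (1, 0) * X (0, 0) + C h * X (0, 0)}

/-- The germ in the chart of the eigenvector `(1, y)`, in the variables `y, t, b`. -/
def steinbergGerm (φ : O →+* ball1 K) : Fin 2 × Fin 3 → MvPolynomial (Fin 3) (ball1 K) :=
  fun p => ![![-(X 2 * X 0), X 2, -(X 2 * X 0 ^ 2)],
    ![C (φ h) - X 1 * X 0, X 1, X 0 * (2 * C (φ h) - X 1 * X 0)]] p.1 p.2

variable {h}

/-- The point of the chart. -/
def chartPt (h y t b : K) : Fin 2 × Fin 3 → K :=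
  fun p => ![![-(b * y), b, -(b * y ^ 2)], ![h - t * y, t, y * (2 * h - t * y)]] p.1 p.2

/-- An element of the ball times a bounded one. -/
def ballOf (x : K) (hx : ‖x‖ ≤ 1) : ball1 K := ⟨x, hx⟩

omit [IsUltrametricDist K] in
theorem norm_mul_div_le {u v : K} {η : K} (hu : ‖u‖ ≤ ‖η‖) (hv : ‖v‖ ≤ 1) :
    ‖u * v / η‖ ≤ 1 := by
  rw [norm_div, norm_mul]
  exact div_le_one_of_le₀ ((mul_le_of_le_one_right (norm_nonneg _) hv).trans hu) (norm_nonneg _)

variable [IsAlgClosed K] {S : (Fin 2 × Fin 3 → ball1 K) → Prop}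

omit [IsLocalRing O] in
/-- The chart of the eigenvector `(1, y)` with `‖y‖ ≤ 1`. -/
theorem sat_chart (hS : PersistsPoly S)
    (hgerm : ∀ b : Fin 3 → ball1 K, (∀ i, ‖(b i : K)‖ < 1) →
      S fun i => eval b (steinbergGerm h φ i))
    (hh : ‖(φ h : K)‖ < 1) {y t b : K} (hy : ‖y‖ ≤ 1) (ht : ‖t‖ < 1) (hb : ‖b‖ < 1)
    (P : Fin 2 × Fin 3 → ball1 K) (hP : ∀ i, (P i : K) = chartPt (φ h : K) y t b i) : S P := by
  set h₀ : K := (φ h : K) with hh₀
  obtain ⟨η, hη0, hη1, hη⟩ := exists_eta (K := K) (c := max ‖t‖ (max ‖b‖ ‖h₀‖))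
    (max_lt ht (max_lt hb hh)) 2
  simp only [max_lt_iff] at hη
  have hη' : ‖η‖ ^ 2 ≤ ‖η‖ := pow_le_of_le_one (norm_nonneg _) hη1.le two_ne_zero
  have hy2 : ‖y ^ 2‖ ≤ 1 := by rw [norm_pow]; exact pow_le_one₀ (norm_nonneg _) hy
  have hηp : 0 < ‖η‖ := norm_pos_iff.mpr hη0
  have h2 : ‖2 * h₀‖ ≤ ‖η‖ := by
    rw [norm_mul]
    exact (mul_le_of_le_one_left (norm_nonneg _)
      (by simpa using IsUltrametricDist.norm_natCast_le_one K 2)).trans (hη.2.2.le.trans hη')
  have hsq : ∀ {u : K}, ‖u‖ ≤ ‖η‖ ^ 2 → ‖u * y ^ 2 / η ^ 2‖ ≤ 1 := fun hu =>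
    norm_mul_div_le (by rwa [norm_pow]) hy2
  let cy := ballOf (h₀) hh.le
  let x : Fin 2 × Fin 3 → Polynomial (ball1 K) := fun p =>
    ![![Polynomial.C (ballOf (-b * y / η) (norm_mul_div_le (by rw [norm_neg]; exact hη.2.1.le.trans hη') hy)) *
          Polynomial.X,
        Polynomial.C (ballOf b hb.le),
        Polynomial.C (ballOf (-b * y ^ 2 / η ^ 2) (hsq (by rw [norm_neg]; exact hη.2.1.le))) *
          Polynomial.X ^ 2],
      ![Polynomial.C cy + Polynomial.C (ballOf (-t * y / η)
          (norm_mul_div_le (by rw [norm_neg]; exact hη.1.le.trans hη') hy)) * Polynomial.X,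
        Polynomial.C (ballOf t ht.le),
        Polynomial.C (ballOf (2 * h₀ * y / η) (norm_mul_div_le h2 hy)) * Polynomial.X +
          Polynomial.C (ballOf (-t * y ^ 2 / η ^ 2) (hsq (by rw [norm_neg]; exact hη.1.le))) *
            Polynomial.X ^ 2]] p.1 p.2
  have hval : ∀ (z : ball1 K) i, (((x i).eval z : ball1 K) : K) =
      chartPt h₀ (y * z / η) t b i := by
    intro z i
    obtain ⟨i, j⟩ := i
    fin_cases i <;> fin_cases j <;>
      simp [x, chartPt, cy, ballOf] <;> ring
  have hx0 : ∀ i, ‖((x i).coeff 0 : K)‖ < 1 := by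
    rintro ⟨i, j⟩
    fin_cases i <;> fin_cases j <;> simp [x, cy, ballOf, Polynomial.coeff_C, hb, ht, hh]
  have key := hS x hx0 ‖η‖ hηp (fun z hzη _ => ?_) (ballOf η hη1.le) hη1
  · convert key using 1
    funext i
    refine Subtype.ext ?_
    rw [hP, hval]
    simp [ballOf, hη0]
  · have hsmall : ‖y * z / η‖ < 1 := by
      rw [norm_div, norm_mul, div_lt_one hηp]
      exact lt_of_le_of_lt (mul_le_of_le_one_left (norm_nonneg _) hy) hzη
    have := hgerm ![ballOf _ hsmall.le, ballOf t ht.le, ballOf b hb.le]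
      (by intro i; fin_cases i <;> simp [ballOf, hsmall, ht, hb, -norm_div, -norm_mul])
    convert this using 1
    funext i
    refine Subtype.ext ?_
    rw [hval]
    obtain ⟨i, j⟩ := i
    fin_cases i <;> fin_cases j <;>
      simp [steinbergGerm, chartPt, ballOf, map_ofNat, coe_two, hh₀]

omit [IsLocalRing O] in
/-- The chart of the eigenvector `(x, 1)` with `‖x‖ ≤ 1`. -/
theorem sat_chart_two (hS : PersistsPoly S)
    (hgerm : ∀ b : Fin 3 → ball1 K, (∀ i, ‖(b i : K)‖ < 1) →
      S fun i => eval b (steinbergGerm h φ i))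
    (hh : ‖(φ h : K)‖ < 1) {x r e : K} (hx : ‖x‖ ≤ 1) (hr : ‖r‖ < 1) (he : ‖e‖ < 1)
    (P : Fin 2 × Fin 3 → ball1 K)
    (hP : ∀ i, (P i : K) = (fun p : Fin 2 × Fin 3 => ![![x * e, -(e * x ^ 2), e],
      ![r * x - (φ h : K), x * (2 * (φ h : K) - r * x), r]] p.1 p.2) i) : S P := by
  set h₀ : K := (φ h : K) with hh₀
  obtain ⟨η, hη0, hη1, hη⟩ := exists_eta (K := K) (c := max ‖r‖ (max ‖e‖ ‖h₀‖))
    (max_lt hr (max_lt he hh)) 2
  simp only [max_lt_iff] at hη
  have hη' : ‖η‖ ^ 2 ≤ ‖η‖ := pow_le_of_le_one (norm_nonneg _) hη1.le two_ne_zero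
  have hηp : 0 < ‖η‖ := norm_pos_iff.mpr hη0
  have h2 : ‖(2 : K)‖ ≤ 1 := by simpa using IsUltrametricDist.norm_natCast_le_one K 2
  have hk : ‖x - 1‖ ≤ 1 := by
    rw [sub_eq_add_neg]
    exact norm_add_le_of _ _ hx (by simp)
  have hk2 : ‖(x - 1) ^ 2‖ ≤ 1 := by rw [norm_pow]; exact pow_le_one₀ (norm_nonneg _) hk
  have hsq : ∀ {u : K}, ‖u‖ ≤ ‖η‖ ^ 2 → ‖u * (x - 1) ^ 2 / η ^ 2‖ ≤ 1 := fun hu =>
    norm_mul_div_le (by rwa [norm_pow]) hk2
  have h2e : ‖-(2 * e)‖ ≤ ‖η‖ := by
    rw [norm_neg, norm_mul]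
    exact (mul_le_of_le_one_left (norm_nonneg _) h2).trans (hη.2.1.le.trans hη')
  have hhr : ‖2 * (h₀ - r)‖ ≤ ‖η‖ := by
    rw [norm_mul]
    refine (mul_le_of_le_one_left (norm_nonneg _) h2).trans ?_
    rw [sub_eq_add_neg]
    exact norm_add_le_of _ _ (hη.2.2.le.trans hη') (by rw [norm_neg]; exact hη.1.le.trans hη')
  have hrh : ‖r - h₀‖ < 1 := norm_sub_lt_of _ _ hr hh
  have h2hr : ‖2 * h₀ - r‖ < 1 := norm_sub_lt_of _ _ (by
    rw [norm_mul]; exact (mul_le_of_le_one_left (norm_nonneg _) h2).trans_lt hh) hr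
  let f : Fin 2 × Fin 3 → Polynomial (ball1 K) := fun p =>
    ![![Polynomial.C (ballOf e he.le) + Polynomial.C (ballOf (e * (x - 1) / η)
          (norm_mul_div_le (hη.2.1.le.trans hη') hk)) * Polynomial.X,
        Polynomial.C (ballOf (-e) (by rw [norm_neg]; exact he.le)) +
          Polynomial.C (ballOf (-(2 * e) * (x - 1) / η) (norm_mul_div_le h2e hk)) * Polynomial.X +
          Polynomial.C (ballOf (-e * (x - 1) ^ 2 / η ^ 2)
            (hsq (by rw [norm_neg]; exact hη.2.1.le))) * Polynomial.X ^ 2,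
        Polynomial.C (ballOf e he.le)],
      ![Polynomial.C (ballOf (r - h₀) hrh.le) + Polynomial.C (ballOf (r * (x - 1) / η)
          (norm_mul_div_le (hη.1.le.trans hη') hk)) * Polynomial.X,
        Polynomial.C (ballOf (2 * h₀ - r) h2hr.le) +
          Polynomial.C (ballOf (2 * (h₀ - r) * (x - 1) / η) (norm_mul_div_le hhr hk)) *
            Polynomial.X +
          Polynomial.C (ballOf (-r * (x - 1) ^ 2 / η ^ 2)
            (hsq (by rw [norm_neg]; exact hη.1.le))) * Polynomial.X ^ 2,
        Polynomial.C (ballOf r hr.le)]] p.1 p.2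
  have hval : ∀ (z : ball1 K) i, (((f i).eval z : ball1 K) : K) =
      (fun p : Fin 2 × Fin 3 => let X' := 1 + (x - 1) * z / η
        ![![X' * e, -(e * X' ^ 2), e], ![r * X' - h₀, X' * (2 * h₀ - r * X'), r]] p.1 p.2) i := by
    intro z i
    obtain ⟨i, j⟩ := i
    fin_cases i <;> fin_cases j <;> simp [f, ballOf] <;> ring
  have hx0 : ∀ i, ‖((f i).coeff 0 : K)‖ < 1 := by
    rintro ⟨i, j⟩
    fin_cases i <;> fin_cases j <;> simp [f, ballOf, Polynomial.coeff_C, he, hr, hrh, h2hr]
  have key := hS f hx0 ‖η‖ hηp (fun z hzη _ => ?_) (ballOf η hη1.le) hη1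
  · convert key using 1
    funext i
    refine Subtype.ext ?_
    rw [hP, hval]
    simp [ballOf, hη0]
  · obtain ⟨w, hw'⟩ : ∃ w : K, w = (x - 1) * z / η := ⟨_, rfl⟩
    have hw : ‖w‖ < 1 := by
      rw [hw', norm_div, norm_mul, div_lt_one hηp]
      exact lt_of_le_of_lt (mul_le_of_le_one_left (norm_nonneg _) hk) hzη
    have hX : ‖1 + w‖ = 1 := by
      rw [IsUltrametricDist.norm_add_eq_max_of_norm_ne_norm (by rw [norm_one]; exact hw.ne'),
        norm_one, max_eq_left hw.le]
    have hX0 : 1 + w ≠ 0 := fun h0 => by simp [h0] at hX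
    refine sat_chart hS hgerm hh (y := (1 + w)⁻¹) (t := (1 + w) * (2 * h₀ - r * (1 + w)))
      (b := -(e * (1 + w) ^ 2)) (by rw [norm_inv, hX, inv_one]) ?_ ?_ _ fun i => ?_
    · rw [norm_mul, hX, one_mul]
      exact norm_sub_lt_of _ _ (by
        rw [norm_mul]; exact (mul_le_of_le_one_left (norm_nonneg _) h2).trans_lt hh)
        (by rw [norm_mul, hX, mul_one]; exact hr)
    · rw [norm_neg, norm_mul, norm_pow, hX, one_pow, mul_one]
      exact he
    · rw [hval, ← hw']
      obtain ⟨i, j⟩ := i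
      fin_cases i <;> fin_cases j <;> simp [chartPt, ← hh₀] <;> field_simp <;> ring

/-- The Steinberg component at a scalar place. -/
def steinbergComp (hφ : ∀ c ∈ maximalIdeal O, ‖(φ c : K)‖ < 1) (hm : h ∈ maximalIdeal O)
    (h0 : (φ h : K) ≠ 0) (h20 : (2 : K) ≠ 0) : LocalComp φ (Fin 2 × Fin 3) where
  dim := 3
  rels := steinbergRels h
  germ := steinbergGerm h φ
  germ_small := by
    rintro ⟨i, j⟩
    fin_cases i <;> fin_cases j <;> simp [steinbergGerm, hφ h hm]
  rels_germ := by
    intro g hg b _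
    simp only [steinbergRels, Set.mem_insert_iff, Set.mem_singleton_iff] at hg
    rcases hg with rfl | rfl | rfl | rfl | rfl | rfl <;>
      simp [steinbergGerm, map_ofNat] <;> ring
  rels_const := by
    intro g hg
    simp only [steinbergRels, Set.mem_insert_iff, Set.mem_singleton_iff] at hg
    rcases hg with rfl | rfl | rfl | rfl | rfl | rfl <;>
      simp [Ideal.pow_mem_of_mem _ hm 2 two_pos]
  param := ![X (1, 0), X (1, 1) + X (0, 2), X (1, 2) + X (0, 1)]
  param_const j := by fin_cases j <;> simp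
  nil {B} _ f P hP hrels hpar hC := by
    have hh : f (C h) ∈ P := hC h hm
    have hs : f (X (1, 0)) ∈ P := hpar 0
    have hte : f (X (1, 1)) + f (X (0, 2)) ∈ P := by rw [← map_add]; exact hpar 1
    have hrb : f (X (1, 2)) + f (X (0, 1)) ∈ P := by rw [← map_add]; exact hpar 2
    have h1 := hrels (X (0, 0) ^ 2 + X (0, 1) * X (0, 2)) (by simp [steinbergRels])
    have h3 := hrels (X (1, 0) * X (0, 0) + X (1, 1) * X (0, 2) - C h * X (0, 0))
      (by simp [steinbergRels])
    have h6 := hrels (X (1, 2) * X (0, 1) + X (1, 0) * X (0, 0) + C h * X (0, 0))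
      (by simp [steinbergRels])
    simp only [map_add, map_sub, map_mul, map_pow] at h1 h3 h6
    set a := f (X (0, 0))
    set b := f (X (0, 1))
    set e := f (X (0, 2))
    set s := f (X (1, 0))
    set t := f (X (1, 1))
    set r := f (X (1, 2))
    have hte0 : t * e ∈ P := by
      have := P.add_mem (P.sub_mem h3 (P.mul_mem_right a hs)) (P.mul_mem_right a hh)
      convert this using 1; ring
    have hrb0 : r * b ∈ P := by
      have := P.sub_mem (P.sub_mem h6 (P.mul_mem_right a hs)) (P.mul_mem_right a hh)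
      convert this using 1; ring
    have ht : t ∈ P := (hP.mem_or_mem hte0).elim id fun he => by simpa using P.sub_mem hte he
    have he : e ∈ P := by simpa using P.sub_mem hte ht
    have hr : r ∈ P := (hP.mem_or_mem hrb0).elim id fun hb => by simpa using P.sub_mem hrb hb
    have hb : b ∈ P := by simpa using P.sub_mem hrb hr
    have ha : a ∈ P := hP.mem_of_pow_mem 2 (by
      simpa using P.sub_mem h1 (P.mul_mem_left b he))
    rintro ⟨i, j⟩
    fin_cases i <;> fin_cases j <;> assumption
  reach S hS hgerm pt hpt hrel := by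
    set h₀ : K := (φ h : K) with hh₀
    have hcast : ∀ g ∈ steinbergRels h, ((eval₂ φ pt g : ball1 K) : K) = 0 := fun g hg => by
      rw [hrel g hg]; rfl
    set a : K := (pt (0, 0) : K) with ha
    set b : K := (pt (0, 1) : K) with hb
    set e : K := (pt (0, 2) : K) with he
    set s : K := (pt (1, 0) : K) with hs
    set t : K := (pt (1, 1) : K) with ht
    set r : K := (pt (1, 2) : K) with hr
    have r2 : s ^ 2 + t * r = h₀ ^ 2 := by
      have := hcast (X (1, 0) ^ 2 + X (1, 1) * X (1, 2) - C h ^ 2) (by simp [steinbergRels])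
      simp only [eval₂_sub, eval₂_add, eval₂_mul, eval₂_pow, eval₂_X, eval₂_C] at this
      simpa [sub_eq_zero] using this
    have r3 : s * a + t * e = h₀ * a := by
      have := hcast (X (1, 0) * X (0, 0) + X (1, 1) * X (0, 2) - C h * X (0, 0))
        (by simp [steinbergRels])
      simp only [eval₂_sub, eval₂_add, eval₂_mul, eval₂_X, eval₂_C] at this
      simpa [sub_eq_zero] using this
    have r4 : s * b - t * a = h₀ * b := by
      have := hcast (X (1, 0) * X (0, 1) - X (1, 1) * X (0, 0) - C h * X (0, 1))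
        (by simp [steinbergRels])
      simp only [eval₂_sub, eval₂_mul, eval₂_X, eval₂_C] at this
      simpa [sub_eq_zero] using this
    have r5 : r * a - s * e = h₀ * e := by
      have := hcast (X (1, 2) * X (0, 0) - X (1, 0) * X (0, 2) - C h * X (0, 2))
        (by simp [steinbergRels])
      simp only [eval₂_sub, eval₂_mul, eval₂_X, eval₂_C] at this
      simpa [sub_eq_zero] using this
    have r6 : r * b + s * a = -(h₀ * a) := by
      have := hcast (X (1, 2) * X (0, 1) + X (1, 0) * X (0, 0) + C h * X (0, 0))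
        (by simp [steinbergRels])
      simp only [eval₂_add, eval₂_mul, eval₂_X, eval₂_C] at this
      exact eq_neg_of_add_eq_zero_left (by simpa using this)
    have h2h : 2 * h₀ ≠ 0 := mul_ne_zero h20 h0
    obtain ⟨v₀, v₁, hne, e1, e2⟩ : ∃ v₀ v₁ : K, (v₀ ≠ 0 ∨ v₁ ≠ 0) ∧
        (s - h₀) * v₀ + t * v₁ = 0 ∧ r * v₀ = (s + h₀) * v₁ := by
      by_cases hts : t = 0 ∧ s = h₀
      · exact ⟨2 * h₀, r, Or.inl h2h, by rw [hts.1, hts.2]; ring, by rw [hts.2]; ring⟩
      · refine ⟨t, h₀ - s, ?_, by ring, by linear_combination r2⟩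
        by_contra hc
        simp only [not_or, not_not, sub_eq_zero] at hc
        exact hts ⟨hc.1, hc.2.symm⟩
    rcases le_or_gt ‖v₁‖ ‖v₀‖ with hle | hgt
    · have hv0 : v₀ ≠ 0 := fun h' => by
        rcases hne with h1 | h1
        · exact h1 h'
        · exact h1 (norm_le_zero_iff.mp (by simpa [h'] using hle))
      set y : K := v₁ / v₀ with hy
      have hyv : v₁ = y * v₀ := by rw [hy, div_mul_cancel₀ _ hv0]
      have es : s = h₀ - t * y := mul_right_cancel₀ hv0 (by
        rw [hyv] at e1; linear_combination e1)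
      have er : r = y * (2 * h₀ - t * y) := mul_right_cancel₀ hv0 (by
        rw [hyv] at e2; rw [es] at e2; linear_combination e2)
      have key : ∀ w₀ w₁ : K, (s - h₀) * w₀ + t * w₁ = 0 → r * w₀ = (s + h₀) * w₁ → w₁ = y * w₀ := by
        intro w₀ w₁ f1 f2
        have g1 : t * (w₁ - y * w₀) = 0 := by rw [es] at f1; linear_combination f1
        have g2 : (2 * h₀ - t * y) * (w₁ - y * w₀) = 0 := by
          rw [es, er] at f2; linear_combination -f2
        have g3 : 2 * h₀ * (w₁ - y * w₀) = 0 := by linear_combination g2 + y * g1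
        exact sub_eq_zero.mp ((mul_eq_zero.mp g3).resolve_left h2h)
      have ea : a = -(b * y) := by
        have := key b (-a) (by linear_combination r4) (by linear_combination r6)
        linear_combination -this
      have ee : e = -(b * y ^ 2) := by
        have := key a e (by linear_combination r3) (by linear_combination r5)
        rw [ea] at this; linear_combination this
      refine sat_chart hS hgerm (hφ h hm) (y := y) (t := t) (b := b) ?_ (hpt _) (hpt _) pt ?_
      · rw [hy, norm_div]; exact div_le_one_of_le₀ hle (norm_nonneg _)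
      · rintro ⟨i, j⟩
        fin_cases i <;> fin_cases j <;>
          first
          | exact ea | exact hb.symm | exact ee | exact es | exact ht.symm | exact er
    · have hv1 : v₁ ≠ 0 := fun h' => by
        rw [h', norm_zero] at hgt
        exact absurd hgt (not_lt.mpr (norm_nonneg _))
      set x : K := v₀ / v₁ with hx
      have hxv : v₀ = x * v₁ := by rw [hx, div_mul_cancel₀ _ hv1]
      have es : s = r * x - h₀ := mul_right_cancel₀ hv1 (by
        rw [hxv] at e2; linear_combination -e2)
      have et : t = x * (2 * h₀ - r * x) := mul_right_cancel₀ hv1 (by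
        rw [hxv] at e1; rw [es] at e1; linear_combination e1)
      have key : ∀ w₀ w₁ : K, (s - h₀) * w₀ + t * w₁ = 0 → r * w₀ = (s + h₀) * w₁ → w₀ = x * w₁ := by
        intro w₀ w₁ f1 f2
        have g1 : r * (w₀ - x * w₁) = 0 := by rw [es] at f2; linear_combination f2
        have g2 : (r * x - 2 * h₀) * (w₀ - x * w₁) = 0 := by
          rw [es, et] at f1; linear_combination f1
        have g3 : 2 * h₀ * (w₀ - x * w₁) = 0 := by linear_combination -g2 + x * g1
        exact sub_eq_zero.mp ((mul_eq_zero.mp g3).resolve_left h2h)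
      have ea : a = x * e := key a e (by linear_combination r3) (by linear_combination r5)
      have eb : b = -(e * x ^ 2) := by
        have := key b (-a) (by linear_combination r4) (by linear_combination r6)
        rw [ea] at this; linear_combination this
      refine sat_chart_two hS hgerm (hφ h hm) (x := x) (r := r) (e := e) ?_ (hpt _) (hpt _) pt ?_
      · rw [hx, norm_div]; exact div_le_one_of_le₀ hgt.le (norm_nonneg _)
      · rintro ⟨i, j⟩
        fin_cases i <;> fin_cases j <;>
          first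
          | exact ea | exact eb | exact he.symm | exact es | exact et | exact hr.symm

end Steinberg

end Fermat.Agent.RT.Lift
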