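import Fermat.Agent.RT.Lift.Germ.Data

/-!
# The data of a scalar place

Coordinates `(0, j) = (a, b, e)` of the traceless `N` and `(1, j) = (s, t, r)` of the traceless
part `u` of Frobenius, whose trace `T` satisfies `T ^ 2 = 4 (q - det u)`. The relations are
`N ^ 2 = 0` and `(T + 2 u) N = q N (T + 2 u)`.
-/

set_option autoImplicit false

noncomputable section

namespace Fermat.Agent.RT.Lift

open IsLocalRing MvPowerSeries Fermat.Agent.RT.Germ Matrix

variable {O : Type} [CommRing O]

/-- The embedding of the free coordinates of the unramified component. -/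
def scalarUrEmb : Fin 3 ↪ Fin 2 × Fin 3 := ⟨fun j => (1, j), fun _ _ h => by simpa using h⟩

/-- `4 (q - det u)`. -/
def scalarSq (q : O) : MvPolynomial (Fin 2 × Fin 3) O :=
  4 * (MvPolynomial.C q + MvPolynomial.X (1, 0) ^ 2 +
    MvPolynomial.X (1, 1) * MvPolynomial.X (1, 2))

/-- `(T + 2 u) N - q N (T + 2 u)`. -/
def scalarComm (q : O) (T : MvPowerSeries (Fin 2 × Fin 3) O) :
    Matrix (Fin 2) (Fin 2) (MvPowerSeries (Fin 2 × Fin 3) O) :=
  !![T + 2 * X (1, 0), 2 * X (1, 1); 2 * X (1, 2), T - 2 * X (1, 0)] *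
      !![X (0, 0), X (0, 1); X (0, 2), -X (0, 0)] -
    (C q : MvPowerSeries (Fin 2 × Fin 3) O) • (!![X (0, 0), X (0, 1); X (0, 2), -X (0, 0)] *
      !![T + 2 * X (1, 0), 2 * X (1, 1); 2 * X (1, 2), T - 2 * X (1, 0)])

/-- The relations at a scalar place. -/
def scalarRel (q : O) (T : MvPowerSeries (Fin 2 × Fin 3) O) :
    Set (MvPowerSeries (Fin 2 × Fin 3) O) :=
  {X (0, 0) ^ 2 + X (0, 1) * X (0, 2)} ∪ Set.range fun ij : Fin 2 × Fin 2 =>
    scalarComm q T ij.1 ij.2

section Equations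

variable {R : Type*} [CommRing R] (f : MvPowerSeries (Fin 2 × Fin 3) O →+* R)
  {q : O} {T : MvPowerSeries (Fin 2 × Fin 3) O}

/-- The four equations of `scalarComm` after a ring map. -/
theorem map_scalarComm :
    let Q := f (C q); let t₀ := f T
    let a := f (X (0, 0)); let b := f (X (0, 1)); let e := f (X (0, 2))
    let s := f (X (1, 0)); let t := f (X (1, 1)); let r := f (X (1, 2))
    f (scalarComm q T 0 0) = (1 - Q) * t₀ * a + 2 * (s * a + t * e) - 2 * Q * (a * s + b * r) ∧
    f (scalarComm q T 0 1) = (1 - Q) * t₀ * b + 2 * (s * b - t * a) - 2 * Q * (a * t - b * s) ∧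
    f (scalarComm q T 1 0) = (1 - Q) * t₀ * e + 2 * (r * a - s * e) - 2 * Q * (e * s - a * r) ∧
    f (scalarComm q T 1 1) = -((1 - Q) * t₀ * a) + 2 * (r * b + s * a) - 2 * Q * (e * t + a * s) := by
  refine ⟨?_, ?_, ?_, ?_⟩ <;>
    simp [scalarComm, map_ofNat] <;> ring

end Equations

variable [IsLocalRing O]

omit [IsLocalRing O] in
theorem isUnit_two_series {σ : Type} (h2 : IsUnit (2 : O)) : IsUnit (2 : MvPowerSeries σ O) := by
  rw [← map_ofNat (C : O →+* MvPowerSeries σ O) 2]
  exact h2.map _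

variable {K : Type*} [NontriviallyNormedField K] [IsUltrametricDist K] [CompleteSpace K]
  [IsAlgClosed K] {φ : O →+* ball1 K} {q ε hm h : O}

omit [IsLocalRing O] [IsAlgClosed K] in
/-- On the points `u = diag (h, -h)` the trace is `ε (q + 1)`. -/
theorem ev_scalar_trace (hε : ε ^ 2 = 1)
    (hh : 2 * h = ε * (q - 1)) (T : MvPowerSeries (Fin 2 × Fin 3) O)
    (hT : T ^ 2 = (scalarSq q : MvPowerSeries _ O))
    (hT0 : IsUnit (constantCoeff T + ε * (q + 1))) (pt : Fin 2 × Fin 3 → ball1 K)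
    (hpt : ∀ i, ‖(pt i : K)‖ < 1) (hs : pt (1, 0) = φ h) (ht : pt (1, 1) = 0)
    (hr : pt (1, 2) = 0) :
    ev φ pt hpt (T - C (ε * (q + 1))) = 0 ∧ ev φ pt hpt (T + C (ε * (q + 1))) ≠ 0 := by
  have hu : IsUnit (T + C (ε * (q + 1))) := MvPowerSeries.isUnit_iff_constantCoeff.mpr (by
    rwa [map_add, constantCoeff_C])
  have hne : ev φ pt hpt (T + C (ε * (q + 1))) ≠ 0 := (hu.map _).ne_zero
  refine ⟨?_, hne⟩
  have h' := congrArg (ev φ pt hpt) hT
  simp only [scalarSq, MvPolynomial.coe_mul, MvPolynomial.coe_add, MvPolynomial.coe_pow,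
    MvPolynomial.coe_C, MvPolynomial.coe_X, map_mul, map_add, map_pow, ev_C, ev_X, hs, ht, hr,
    show ((4 : MvPolynomial (Fin 2 × Fin 3) O) : MvPowerSeries (Fin 2 × Fin 3) O) = 4 from
      map_ofNat MvPolynomial.coeToMvPowerSeries.ringHom 4, map_ofNat] at h'
  have hh2 : 2 * φ h = φ ε * (φ q - 1) := by simpa [map_ofNat] using congrArg φ hh
  have hE : φ ε ^ 2 = 1 := by rw [← map_pow, hε, map_one]
  refine (mul_eq_zero.mp (show ev φ pt hpt (T - C (ε * (q + 1))) *
    ev φ pt hpt (T + C (ε * (q + 1))) = 0 from ?_)).resolve_right hne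
  simp only [map_sub, map_add, map_mul, map_one, ev_C]
  linear_combination h' + (2 * φ h + φ ε * (φ q - 1)) * hh2 - 4 * φ q * hE

/-- **The data of a scalar place.** -/
def scalarPlace (hφinj : Function.Injective φ) (hφ : ∀ c ∈ maximalIdeal O, ‖(φ c : K)‖ < 1)
    (h2 : IsUnit (2 : O)) (hqm : q - 1 ∈ maximalIdeal O) (hq1 : q ≠ 1) (hq1' : q + 1 ≠ 0)
    (hε : ε ^ 2 = 1) (hhm : 2 * hm = ε * (q + 1)) (hh : 2 * h = ε * (q - 1))
    (T : MvPowerSeries (Fin 2 × Fin 3) O) (hT : T ^ 2 = (scalarSq q : MvPowerSeries _ O))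
    (hT0 : IsUnit (constantCoeff T + ε * (q + 1))) : PlaceData φ (Fin 2 × Fin 3) where
  ur := fixedComp hφ scalarUrEmb (fun _ => 0) fun _ => zero_mem _
  st := steinbergComp hφ
    (show h ∈ maximalIdeal O by
      rw [show h = (h2.unit⁻¹ : Oˣ) * (ε * (q - 1)) by rw [← hh, ← mul_assoc, h2.val_inv_mul, one_mul]]
      exact Ideal.mul_mem_left _ _ (Ideal.mul_mem_left _ _ hqm))
    (fun h0 => hq1 (by
      have h00 : h = 0 := hφinj (Subtype.ext (h0.trans (by simp)))
      rw [h00, mul_zero] at hh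
      linear_combination -ε * hh - (q - 1) * hε))
    (fun h0 => by
      refine h2.ne_zero (hφinj (Subtype.ext ?_))
      simpa [map_ofNat, coe_two] using h0)
  dim_eq := rfl
  rel := scalarRel q T
  nSet := Set.range fun j => X ((0 : Fin 2), (j : Fin 3))
  c := C (q + 1)
  T := T
  y := T - C (ε * (q + 1))
  y' := T + C (ε * (q + 1))
  y_mul := by
    have e : (C ε : MvPowerSeries (Fin 2 × Fin 3) O) ^ 2 = 1 := by rw [← map_pow, hε, map_one]
    rw [map_mul]
    linear_combination (-(C (q + 1) : MvPowerSeries (Fin 2 × Fin 3) O) ^ 2) * e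
  ur_nil P _ _ hn hpar _ := by
    rintro ⟨i, j⟩
    fin_cases i
    · exact hn ⟨j, rfl⟩
    · have := hpar j
      rwa [show (fixedComp hφ scalarUrEmb (fun _ => (0 : O)) fun _ => zero_mem _).param j =
        MvPolynomial.X ((1 : Fin 2), j) from rfl, MvPolynomial.coe_X] at this
  st_nil P hP hrel hy hpar hC := by
    let g := Ideal.Quotient.mk P
    have hz : ∀ {x}, x ∈ P → g x = 0 := fun hx => Ideal.Quotient.eq_zero_iff_mem.mpr hx
    have hQ : g (C q) = 1 := by
      have := hz (hC _ hqm)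
      rwa [map_sub, map_one, map_sub, map_one, sub_eq_zero] at this
    have h2' : (2 : MvPowerSeries (Fin 2 × Fin 3) O ⧸ P) ≠ 0 := by
      rw [← map_ofNat g 2]
      exact fun h0 => hP.ne_top (Ideal.eq_top_of_isUnit_mem _
        (Ideal.Quotient.eq_zero_iff_mem.mp h0) (isUnit_two_series h2))
    obtain ⟨e00, e01, e10, -⟩ := map_scalarComm g (q := q) (T := T)
    rw [hz (hrel (Or.inr ⟨(0, 0), rfl⟩))] at e00
    have hN := hz (hrel (Or.inl rfl))
    have hsq := congrArg g hT
    have hT' : g T = g (C ε) * 2 := by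
      have := hz hy
      rw [map_sub, sub_eq_zero, map_mul, map_add, map_one, map_mul, map_add, map_one, hQ] at this
      rw [this]; ring
    have hs : g (X (1, 0)) = 0 := hz (by simpa [steinbergComp] using hpar (0 : Fin 3))
    have hte : g (X (1, 1)) + g (X (0, 2)) = 0 := by
      rw [← map_add]; exact hz (by simpa [steinbergComp] using hpar (1 : Fin 3))
    have hrb : g (X (1, 2)) + g (X (0, 1)) = 0 := by
      rw [← map_add]; exact hz (by simpa [steinbergComp] using hpar (2 : Fin 3))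
    have hE : g (C ε) ^ 2 = 1 := by rw [← map_pow, ← map_pow, hε, map_one, map_one]
    simp only [scalarSq, MvPolynomial.coe_mul, MvPolynomial.coe_add, MvPolynomial.coe_pow,
      MvPolynomial.coe_C, MvPolynomial.coe_X, map_mul, map_add, map_pow, hQ, hs, hT',
      show ((4 : MvPolynomial (Fin 2 × Fin 3) O) : MvPowerSeries (Fin 2 × Fin 3) O) = 4 from
        map_ofNat MvPolynomial.coeToMvPowerSeries.ringHom 4, map_ofNat] at hsq e00
    simp only [map_add, map_mul, map_pow] at hN
    set a := g (X (0, 0))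
    set b := g (X (0, 1))
    set e := g (X (0, 2))
    set t := g (X (1, 1))
    set r := g (X (1, 2))
    have htr : t * r = 0 := (mul_eq_zero.mp (show (2 * 2) * (t * r) = 0 by
      linear_combination -hsq + 4 * hE)).resolve_left (mul_ne_zero h2' h2')
    have hd : t * e - b * r = 0 := (mul_eq_zero.mp (show 2 * (t * e - b * r) = 0 by
      linear_combination -e00)).resolve_left h2'
    have heb : e * b = 0 := by linear_combination htr - r * hte + e * hrb
    have hee : e ^ 2 - b ^ 2 = 0 := by linear_combination -hd + e * hte - b * hrb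
    have he : e = 0 := by
      rcases mul_eq_zero.mp heb with h0 | h0
      · exact h0
      · rw [h0] at hee
        exact pow_eq_zero_iff two_ne_zero |>.mp (by linear_combination hee)
    have hb : b = 0 := pow_eq_zero_iff two_ne_zero |>.mp (by rw [he] at hee; linear_combination -hee)
    have ht : t = 0 := by linear_combination hte - he
    have hr : r = 0 := by linear_combination hrb - hb
    have ha : a = 0 := pow_eq_zero_iff two_ne_zero |>.mp (by linear_combination hN - e * hb)
    rintro ⟨i, j⟩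
    fin_cases i <;> fin_cases j <;> exact Ideal.Quotient.eq_zero_iff_mem.mp ‹_›
  ur_rels P _ _ _ hn := by
    rintro _ ⟨i, hi, rfl⟩
    obtain ⟨k, j⟩ := i
    fin_cases k
    · simpa [map_zero] using hn ⟨j, rfl⟩
    · exact absurd ⟨j, rfl⟩ hi
  st_rels P hP hconst hrel hy := by
    have hc : ∀ {o : O}, o ≠ 0 → (MvPolynomial.coeToMvPowerSeries.ringHom (MvPolynomial.C o) :
        MvPowerSeries (Fin 2 × Fin 3) O) ∉ P := fun ho => by
      simpa using hconst _ ho
    let g := Ideal.Quotient.mk P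
    have hz : ∀ {x}, x ∈ P → g x = 0 := fun hx => Ideal.Quotient.eq_zero_iff_mem.mpr hx
    have hzi : ∀ {x}, g x = 0 → x ∈ P := fun hx => Ideal.Quotient.eq_zero_iff_mem.mp hx
    have h2' : g (C 2) ≠ 0 := fun h0 => hconst 2 h2.ne_zero (hzi h0)
    rw [map_ofNat, map_ofNat] at h2'
    have hT' : g T = 2 * g (C hm) := by
      have := hz hy
      rw [map_sub, sub_eq_zero, ← hhm, map_mul, map_ofNat, map_mul, map_ofNat] at this
      exact this
    have hsq := congrArg g hT
    simp only [scalarSq, MvPolynomial.coe_mul, MvPolynomial.coe_add, MvPolynomial.coe_pow,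
      MvPolynomial.coe_C, MvPolynomial.coe_X, map_mul, map_add, map_pow, hT',
      show ((4 : MvPolynomial (Fin 2 × Fin 3) O) : MvPowerSeries (Fin 2 × Fin 3) O) = 4 from
        map_ofNat MvPolynomial.coeToMvPowerSeries.ringHom 4, map_ofNat] at hsq
    obtain ⟨e00, e01, e10, e11⟩ := map_scalarComm g (q := q) (T := T)
    rw [hz (hrel (Or.inr ⟨(0, 0), rfl⟩)), hT'] at e00
    rw [hz (hrel (Or.inr ⟨(0, 1), rfl⟩)), hT'] at e01
    rw [hz (hrel (Or.inr ⟨(1, 0), rfl⟩)), hT'] at e10
    rw [hz (hrel (Or.inr ⟨(1, 1), rfl⟩)), hT'] at e11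
    refine steinbergRels_mem MvPolynomial.coeToMvPowerSeries.ringHom hε hhm hh
      (hc (sub_ne_zero.mpr hq1)) (hc hq1') (hc h2.ne_zero)
      (by simpa using hrel (Or.inl rfl)) ?_ fun i j => ?_
    · refine hzi ((mul_eq_zero.mp (show (2 * 2 : _ ⧸ P) * _ = 0 from ?_)).resolve_left (mul_ne_zero h2' h2'))
      simp only [scalarFrob, det_fin_two, of_apply, cons_val', cons_val_zero, cons_val_one,
        map_mul, map_add, map_sub]
      simp only [MvPolynomial.coeToMvPowerSeries.ringHom_apply, MvPolynomial.coe_C,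
        MvPolynomial.coe_X]
      linear_combination hsq
    · refine hzi ((mul_eq_zero.mp (show (2 : _ ⧸ P) * _ = 0 from ?_)).resolve_left h2')
      fin_cases i <;> fin_cases j <;>
        simp only [Fin.zero_eta, Fin.mk_one, scalarFrob, scalarNil, Matrix.sub_apply,
          Matrix.smul_apply, Matrix.mul_apply, Fin.sum_univ_two, of_apply, cons_val',
          cons_val_zero, cons_val_one, smul_eq_mul, map_mul, map_add, map_sub, map_neg] <;>
        simp only [MvPolynomial.coeToMvPowerSeries.ringHom_apply, MvPolynomial.coe_C,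
          MvPolynomial.coe_X]
      · linear_combination -e00
      · linear_combination -e01
      · linear_combination -e10
      · linear_combination -e11
  exists_meet := by
    have hh' : ‖(φ h : K)‖ < 1 := hφ h (by
      rw [show h = (h2.unit⁻¹ : Oˣ) * (ε * (q - 1)) by rw [← hh, ← mul_assoc, h2.val_inv_mul, one_mul]]
      exact Ideal.mul_mem_left _ _ (Ideal.mul_mem_left _ _ hqm))
    obtain ⟨hpt, -⟩ := steinberg_point hh' 0 (by simp)
    refine ⟨_, hpt, ?_, ev_scalar_trace hε hh T hT hT0 _ hpt rfl rfl rfl⟩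
    rintro _ ⟨⟨k, j⟩, hi, rfl⟩
    fin_cases k
    · fin_cases j <;> simp
    · exact absurd ⟨j, rfl⟩ hi
  exists_special := by
    have hh' : ‖(φ h : K)‖ < 1 := hφ h (by
      rw [show h = (h2.unit⁻¹ : Oˣ) * (ε * (q - 1)) by rw [← hh, ← mul_assoc, h2.val_inv_mul, one_mul]]
      exact Ideal.mul_mem_left _ _ (Ideal.mul_mem_left _ _ hqm))
    obtain ⟨π, hπ0, hπ1⟩ := NormedField.exists_norm_lt_one K
    obtain ⟨hpt, hrels⟩ := steinberg_point hh' ⟨π, hπ1.le⟩ hπ1
    refine ⟨_, hpt, hrels, X (0, 1), ⟨1, rfl⟩, ?_⟩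
    rw [map_mul, ev_X]
    exact mul_ne_zero (ev_scalar_trace hε hh T hT hT0 _ hpt rfl rfl rfl).2
      fun h0 => hπ0.ne' (by simpa using congrArg (fun x : ball1 K => ‖(x : K)‖) h0)

end Fermat.Agent.RT.Lift
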