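import Fermat.Agent.RT.Lift.Flip
import Fermat.Agent.RT.Lift.Germ.Limit

/-!
# The flip lemma on limits of levels

For levels given by matrices over the level quotients: a nonzero limit module has a prime of full
dimension in its support; degeneracy matrices with the finite level identities give the flip
lemma on the limits; a limit point in the support kills whatever kills the augmented levels.
-/

set_option autoImplicit false

noncomputable section

namespace Fermat.Agent.RT.Lift

open MvPowerSeries IsLocalRing Matrix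
open Fermat.Agent.RT.Algebra (exists_ultralimit)

variable {O : Type} [CommRing O] [IsLocalRing O] [IsNoetherianRing O]
  [IsAdicComplete (maximalIdeal O) O] [Finite (ResidueField O)]
  {r p : ℕ} {σ : Type} [Finite σ] {U : Ultrafilter ℕ} {D E : ℕ}

/-- Every `(1 + y) + (1 + y)⁻¹` is in the image at every level. -/
def HasQuad (act : ∀ n, MvPowerSeries σ O →ₐ[O] Matrix (Fin D) (Fin D) (LevelQuot O r p n)) :
    Prop :=
  ∀ n (i : Fin r), ∃ a,
    Matrix.scalar (Fin D) ((1 + toLevel (O := O) (r := r) (p := p) n (X i)) ^ 2 + 1) =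
      Matrix.scalar (Fin D) (1 + toLevel (O := O) (r := r) (p := p) n (X i)) * act n a

variable (hp : (p : O) ∈ maximalIdeal O) (hU : ∀ j, ∀ᶠ n in (U : Filter ℕ), j ≤ n)
  (act : ∀ n, MvPowerSeries σ O →ₐ[O] Matrix (Fin D) (Fin D) (LevelQuot O r p n))

/-- The limit module. -/
abbrev limitModule : Module (MvPowerSeries σ O) (Fin D → DiaSeries O r) :=
  Module.compHom (Fin D → DiaSeries O r)
    ((Matrix.toLinAlgEquiv' (R := DiaSeries O r) (n := Fin D)).toRingEquiv.toRingHom.comp
      (limitAct act U hp hU))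

omit [Finite σ] in
theorem limitModule_smul (f : MvPowerSeries σ O) (v : Fin D → DiaSeries O r) :
    letI := limitModule hp hU act
    f • v = (limitAct act U hp hU f).mulVec v := rfl

omit [Finite σ] in
theorem limitModule_smulCommClass :
    letI := limitModule hp hU act
    SMulCommClass (MvPowerSeries σ O) (DiaSeries O r) (Fin D → DiaSeries O r) :=
  let _ := limitModule hp hU act
  ⟨fun f s v => by rw [limitModule_smul, limitModule_smul, Matrix.mulVec_smul]⟩

omit [Finite σ] in
theorem annihilator_limitModule :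
    letI := limitModule hp hU act
    Module.annihilator (MvPowerSeries σ O) (Fin D → DiaSeries O r) = limitAnn act U hp hU := by
  let _ := limitModule hp hU act
  ext f
  rw [Module.mem_annihilator, limitAnn, RingHom.mem_ker]
  refine ⟨fun h => (Matrix.toLinAlgEquiv' (R := DiaSeries O r) (n := Fin D)).injective
    ((LinearMap.ext fun v => h v).trans (map_zero _).symm), fun h v => ?_⟩
  rw [limitModule_smul, h, Matrix.zero_mulVec]

/-- A nonzero limit module is supported at a prime of full dimension. -/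
theorem exists_prime_limitAnn [IsDomain O] (hD : 0 < D) (hquad : HasQuad act) :
    ∃ 𝔮 : Ideal (MvPowerSeries σ O), 𝔮.IsPrime ∧ limitAnn act U hp hU ≤ 𝔮 ∧
      ringKrullDim (MvPowerSeries σ O ⧸ 𝔮) = ringKrullDim (DiaSeries O r) := by
  have : IsDomain (DiaSeries O r) := NoZeroDivisors.to_isDomain _
  let _ := limitModule hp hU act
  have := limitModule_smulCommClass hp hU act
  have := finite_limit hp hU act hquad
  have : Nonempty (Fin D) := ⟨⟨0, hD⟩⟩
  have hne : Module.annihilator (MvPowerSeries σ O) (Fin D → DiaSeries O r) ≠ ⊤ := fun h => by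
    obtain ⟨v, hv⟩ := exists_ne (0 : Fin D → DiaSeries O r)
    exact hv ((one_smul (MvPowerSeries σ O) v).symm.trans
      (Module.mem_annihilator.mp (h ▸ Submodule.mem_top) v))
  obtain ⟨P, hP, hle⟩ := Ideal.exists_le_maximal _ hne
  obtain ⟨𝔮, h𝔮, -⟩ := Ideal.exists_minimalPrimes_le hle
  exact ⟨𝔮, h𝔮.1.1, annihilator_limitModule hp hU act ▸ h𝔮.1.2,
    (minimalPrime_spec (S := DiaSeries O r) (fun _ _ h => smul_eq_zero.mp h) h𝔮).1⟩

theorem mem_smul_top_pi {R : Type*} [CommRing R] (I : Ideal R) {n : ℕ} {v : Fin n → R} :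
    v ∈ I • (⊤ : Submodule R (Fin n → R)) ↔ ∀ i, v i ∈ I := by
  refine ⟨fun h i => ?_, fun h => ?_⟩
  · have h' := Submodule.mem_map_of_mem (f := LinearMap.proj (R := R) (φ := fun _ : Fin n => R) i) h
    rw [Submodule.map_smul''] at h'
    have h'' := Submodule.smul_mono (le_refl I) (le_top : _ ≤ (⊤ : Submodule R R)) h'
    rwa [smul_eq_mul, Ideal.mul_top] at h''
  · rw [← Finset.univ_sum_single v]
    refine Submodule.sum_mem _ fun i _ => ?_
    rw [show (Pi.single i (v i) : Fin n → R) = v i • Pi.single i 1 by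
      rw [← Pi.single_smul, smul_eq_mul, mul_one]]
    exact Submodule.smul_mem_smul (h i) Submodule.mem_top

variable {actN : ∀ n, MvPowerSeries σ O →ₐ[O] Matrix (Fin D) (Fin D) (LevelQuot O r p n)}
  {actM : ∀ n, MvPowerSeries σ O →ₐ[O] Matrix (Fin E) (Fin E) (LevelQuot O r p n)}

/-- The image of the maximal ideal at level `n`. -/
abbrev levelMax (n : ℕ) : Ideal (LevelQuot O r p n) :=
  (maximalIdeal (DiaSeries O r)).map (toLevel (p := p) n)

/-- Degeneracy matrices with the identities of finite level. -/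
structure DegData
    (actN : ∀ n, MvPowerSeries σ O →ₐ[O] Matrix (Fin D) (Fin D) (LevelQuot O r p n))
    (actM : ∀ n, MvPowerSeries σ O →ₐ[O] Matrix (Fin E) (Fin E) (LevelQuot O r p n))
    (c T : MvPowerSeries σ O) (k : ℕ) where
  d₁ : ∀ n, Matrix (Fin E) (Fin D) (LevelQuot O r p n)
  d₂ : ∀ n, Matrix (Fin E) (Fin D) (LevelQuot O r p n)
  s₁ : ∀ n, Matrix (Fin D) (Fin E) (LevelQuot O r p n)
  s₂ : ∀ n, Matrix (Fin D) (Fin E) (LevelQuot O r p n)
  d₁_comm : ∀ n f, actM n f * d₁ n = d₁ n * actN n f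
  d₂_comm : ∀ n f, actM n f * d₂ n = d₂ n * actN n f
  s₁_comm : ∀ n f, actN n f * s₁ n = s₁ n * actM n f
  s₂_comm : ∀ n f, actN n f * s₂ n = s₂ n * actM n f
  s₁_d₁ : ∀ n, s₁ n * d₁ n = actN n c
  s₁_d₂ : ∀ n, s₁ n * d₂ n = actN n T
  s₂_d₁ : ∀ n, s₂ n * d₁ n = actN n T
  s₂_d₂ : ∀ n, s₂ n * d₂ n = actN n c
  /-- `y ^ k` kills `y + δ (c, -T; -T, c) δs`. -/
  kills : ∀ n, actM n ((T ^ 2 - c ^ 2) ^ k) *
    (actM n (T ^ 2 - c ^ 2) + (d₁ n * actN n c * s₁ n - d₁ n * actN n T * s₂ n -
      d₂ n * actN n T * s₁ n + d₂ n * actN n c * s₂ n)) = 0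
  inj : ∀ n, ∀ u₁ u₂ : Fin D → LevelQuot O r p n,
    (∀ i, ((d₁ n).mulVec u₁ + (d₂ n).mulVec u₂) i ∈ levelMax n) →
    ∀ i, u₁ i ∈ levelMax n ∧ u₂ i ∈ levelMax n
  surj : ∀ n, ∀ w₁ w₂ : Fin D → LevelQuot O r p n, ∃ x : Fin E → LevelQuot O r p n,
    (∀ i, ((s₁ n).mulVec x - w₁) i ∈ levelMax n) ∧ ∀ i, ((s₂ n).mulVec x - w₂) i ∈ levelMax n

/-- **The flip lemma on limits**: a prime of the support of the old limit containing
`y = T ^ 2 - c ^ 2` contains a prime of the support of the new limit which contains `y` and has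
full dimension. -/
theorem exists_prime_flip_limit [IsDomain O] {c T : MvPowerSeries σ O} {k : ℕ}
    (G : DegData actN actM c T k) (hquadN : HasQuad actN) (hquadM : HasQuad actM)
    {P : Ideal (MvPowerSeries σ O)} [P.IsPrime] (hN : limitAnn actN U hp hU ≤ P)
    (hy : T ^ 2 - c ^ 2 ∈ P) :
    ∃ 𝔮 : Ideal (MvPowerSeries σ O), 𝔮.IsPrime ∧ 𝔮 ≤ P ∧ T ^ 2 - c ^ 2 ∈ 𝔮 ∧
      limitAnn actM U hp hU ≤ 𝔮 ∧
      ringKrullDim (MvPowerSeries σ O ⧸ 𝔮) = ringKrullDim (DiaSeries O r) := by
  have : IsDomain (DiaSeries O r) := NoZeroDivisors.to_isDomain _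
  obtain ⟨d₁, h₁⟩ := exists_matApprox (U := U) G.d₁
  obtain ⟨d₂, h₂⟩ := exists_matApprox (U := U) G.d₂
  obtain ⟨s₁, g₁⟩ := exists_matApprox (U := U) G.s₁
  obtain ⟨s₂, g₂⟩ := exists_matApprox (U := U) G.s₂
  let LN := limitAct actN U hp hU
  let LM := limitAct actM U hp hU
  have sN := limitAct_spec hp hU actN
  have sM := limitAct_spec hp hU actM
  have c₁ : ∀ f, LM f * d₁ = d₁ * LN f := fun f =>
    ((sM f).mul h₁).unique hp hU (by simpa only [G.d₁_comm] using h₁.mul (sN f))
  have c₂ : ∀ f, LM f * d₂ = d₂ * LN f := fun f =>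
    ((sM f).mul h₂).unique hp hU (by simpa only [G.d₂_comm] using h₂.mul (sN f))
  have e₁ : ∀ f, LN f * s₁ = s₁ * LM f := fun f =>
    ((sN f).mul g₁).unique hp hU (by simpa only [G.s₁_comm] using g₁.mul (sM f))
  have e₂ : ∀ f, LN f * s₂ = s₂ * LM f := fun f =>
    ((sN f).mul g₂).unique hp hU (by simpa only [G.s₂_comm] using g₂.mul (sM f))
  have i₁₁ : s₁ * d₁ = LN c := (g₁.mul h₁).unique hp hU (by simpa only [G.s₁_d₁] using sN c)
  have i₁₂ : s₁ * d₂ = LN T := (g₁.mul h₂).unique hp hU (by simpa only [G.s₁_d₂] using sN T)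
  have i₂₁ : s₂ * d₁ = LN T := (g₂.mul h₁).unique hp hU (by simpa only [G.s₂_d₁] using sN T)
  have i₂₂ : s₂ * d₂ = LN c := (g₂.mul h₂).unique hp hU (by simpa only [G.s₂_d₂] using sN c)
  have hk : LM ((T ^ 2 - c ^ 2) ^ k) * (LM (T ^ 2 - c ^ 2) + (d₁ * LN c * s₁ - d₁ * LN T * s₂ -
      d₂ * LN T * s₁ + d₂ * LN c * s₂)) = 0 := by
    refine ((sM _).mul ((sM _).add (((((h₁.mul (sN c)).mul g₁).sub ((h₁.mul (sN T)).mul g₂)).sub
      ((h₂.mul (sN T)).mul g₁)).add ((h₂.mul (sN c)).mul g₂)))).unique hp hU ?_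
    simp only [G.kills]
    exact fun i j => by simpa using approx_const (U := U) (p := p) (0 : DiaSeries O r)
  let _ := limitModule hp hU actN
  let _ := limitModule hp hU actM
  have := limitModule_smulCommClass hp hU actM
  have := finite_limit hp hU actN hquadN
  have := finite_limit hp hU actM hquadM
  let N := Fin D → DiaSeries O r
  let δ : N × N →ₗ[MvPowerSeries σ O] (Fin E → DiaSeries O r) :=
    { toFun := fun u => d₁.mulVec u.1 + d₂.mulVec u.2
      map_add' := fun u v => (congrArg₂ (· + ·) (Matrix.mulVec_add d₁ u.1 v.1)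
        (Matrix.mulVec_add d₂ u.2 v.2)).trans (add_add_add_comm _ _ _ _)
      map_smul' := fun f u => by
        show d₁.mulVec ((LN f).mulVec u.1) + d₂.mulVec ((LN f).mulVec u.2) =
          (LM f).mulVec (d₁.mulVec u.1 + d₂.mulVec u.2)
        rw [Matrix.mulVec_add, Matrix.mulVec_mulVec, Matrix.mulVec_mulVec, Matrix.mulVec_mulVec,
          Matrix.mulVec_mulVec, c₁, c₂] }
  let δs : (Fin E → DiaSeries O r) →ₗ[MvPowerSeries σ O] N × N :=
    { toFun := fun m => (s₁.mulVec m, s₂.mulVec m)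
      map_add' := fun u v => Prod.ext (Matrix.mulVec_add s₁ u v) (Matrix.mulVec_add s₂ u v)
      map_smul' := fun f m => by
        show (s₁.mulVec ((LM f).mulVec m), s₂.mulVec ((LM f).mulVec m)) =
          ((LN f).mulVec (s₁.mulVec m), (LN f).mulVec (s₂.mulVec m))
        rw [Matrix.mulVec_mulVec, Matrix.mulVec_mulVec, Matrix.mulVec_mulVec, Matrix.mulVec_mulVec,
          e₁, e₂] }
  refine (exists_prime_flip (S := DiaSeries O r) (δ := δ) (δs := δs)
    (c := c) (T := T) (k := k + 1) ?_ ?_ ?_ ?_ ?_ ?_ (P := P)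
    (by rw [annihilator_limitModule hp hU actN]; exact hN) hy).imp
    fun 𝔮 ⟨h1, h2, h3, h4, h5, _⟩ => ⟨h1, h2, h3, annihilator_limitModule hp hU actM ▸ h4, h5⟩
  · intro s u
    show d₁.mulVec (s • u.1) + d₂.mulVec (s • u.2) = s • (d₁.mulVec u.1 + d₂.mulVec u.2)
    rw [Matrix.mulVec_smul, Matrix.mulVec_smul, smul_add]
  · intro s m
    show (s₁.mulVec (s • m), s₂.mulVec (s • m)) = (s • s₁.mulVec m, s • s₂.mulVec m)
    rw [Matrix.mulVec_smul, Matrix.mulVec_smul]
  · intro u hu
    set m := maximalIdeal (DiaSeries O r)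
    have hu' := (mem_smul_top_pi m).mp hu
    obtain ⟨n, hn⟩ : ∃ n, ∀ i, ((G.d₁ n).mulVec (toLevel n ∘ u.1) +
        (G.d₂ n).mulVec (toLevel n ∘ u.2)) i ∈ levelMax n := by
      refine Filter.Eventually.exists (f := (U : Filter ℕ)) (Filter.eventually_all.mpr fun i => ?_)
      filter_upwards [((h₁.mulVec u.1 i).add (h₂.mulVec u.2 i)) 1] with n hn
      rw [pow_one] at hn
      have := add_mem hn (Ideal.mem_map_of_mem (toLevel n) (hu' i))
      simpa [δ] using this
    have key := G.inj n _ _ hn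
    have hm : ∀ x : DiaSeries O r, toLevel (p := p) n x ∈ levelMax n → x ∈ m := fun x hx => by
      have := mem_pow_of_toLevel_mem hp (n := n) (k := 1) (f := x) n.succ_pos (by rwa [pow_one])
      rwa [pow_one] at this
    have hu₁ : u.1 ∈ m • (⊤ : Submodule (DiaSeries O r) N) :=
      (mem_smul_top_pi m).mpr fun i => hm _ (key i).1
    have hu₂ : u.2 ∈ m • (⊤ : Submodule (DiaSeries O r) N) :=
      (mem_smul_top_pi m).mpr fun i => hm _ (key i).2
    have h1' := Submodule.mem_map_of_mem (f := LinearMap.inl (DiaSeries O r) N N) hu₁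
    have h2' := Submodule.mem_map_of_mem (f := LinearMap.inr (DiaSeries O r) N N) hu₂
    rw [Submodule.map_smul''] at h1' h2'
    have := add_mem (Submodule.smul_mono (le_refl m) le_top h1')
      (Submodule.smul_mono (le_refl m) le_top h2')
    simpa using this
  · intro w
    set m := maximalIdeal (DiaSeries O r)
    have hev : ∀ᶠ n in (U : Filter ℕ),
        (∀ i j, G.s₁ n i j - toLevel n (s₁ i j) ∈ levelMax n) ∧
        ∀ i j, G.s₂ n i j - toLevel n (s₂ i j) ∈ levelMax n := by
      simp only [Filter.eventually_and, Filter.eventually_all]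
      exact ⟨fun i j => (g₁ i j 1).mono fun n hn => by rwa [pow_one] at hn,
        fun i j => (g₂ i j 1).mono fun n hn => by rwa [pow_one] at hn⟩
    obtain ⟨n, hs₁, hs₂⟩ := hev.exists
    obtain ⟨x, hx₁, hx₂⟩ := G.surj n (toLevel n ∘ w.1) (toLevel n ∘ w.2)
    choose x' hx' using fun i => Ideal.Quotient.mk_surjective (x i)
    have hm : ∀ (s : Matrix (Fin D) (Fin E) (DiaSeries O r))
        (S' : Matrix (Fin D) (Fin E) (LevelQuot O r p n)) (v : Fin D → DiaSeries O r),
        (∀ i j, S' i j - toLevel n (s i j) ∈ levelMax n) →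
        (∀ i, (S'.mulVec x - toLevel n ∘ v : Fin D → LevelQuot O r p n) i ∈ levelMax n) →
        s.mulVec x' - v ∈ m • (⊤ : Submodule (DiaSeries O r) N) := fun s S' v hs hx => by
      refine (mem_smul_top_pi m).mpr fun i => ?_
      have h := mem_pow_of_toLevel_mem hp (n := n) (k := 1) (f := s.mulVec x' i - v i) n.succ_pos ?_
      · rwa [pow_one] at h
      rw [pow_one]
      have h2 := sub_mem (hx i) (show ∑ j, (S' i j - toLevel n (s i j)) * x j ∈ levelMax n from
        sum_mem fun j _ => Ideal.mul_mem_right _ _ (hs i j))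
      convert h2 using 1
      simp only [Matrix.mulVec, dotProduct, Pi.sub_apply, Function.comp_apply, map_sub, map_sum,
        map_mul, sub_mul, Finset.sum_sub_distrib, hx']
      ring
    refine ⟨x', ?_⟩
    have h1' := Submodule.mem_map_of_mem (f := LinearMap.inl (DiaSeries O r) N N)
      (hm s₁ _ w.1 hs₁ hx₁)
    have h2' := Submodule.mem_map_of_mem (f := LinearMap.inr (DiaSeries O r) N N)
      (hm s₂ _ w.2 hs₂ hx₂)
    rw [Submodule.map_smul''] at h1' h2'
    have := add_mem (Submodule.smul_mono (le_refl m) le_top h1')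
      (Submodule.smul_mono (le_refl m) le_top h2')
    show ((s₁.mulVec x', s₂.mulVec x') : N × N) - w ∈ _
    convert this using 1
    exact Prod.ext (by simp) (by simp)
  · refine LinearMap.ext fun u => Prod.ext ?_ ?_
    · show s₁.mulVec (d₁.mulVec u.1 + d₂.mulVec u.2) = _
      rw [Matrix.mulVec_add, Matrix.mulVec_mulVec, Matrix.mulVec_mulVec, i₁₁, i₁₂, crossMap_apply]
      rfl
    · show s₂.mulVec (d₁.mulVec u.1 + d₂.mulVec u.2) = _
      rw [Matrix.mulVec_add, Matrix.mulVec_mulVec, Matrix.mulVec_mulVec, i₂₁, i₂₂, crossMap_apply]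
      rfl
  · intro m hm
    have hm₁ : s₁.mulVec m = 0 := congrArg Prod.fst hm
    have hm₂ : s₂.mulVec m = 0 := congrArg Prod.snd hm
    have h := congrArg (fun A : Matrix (Fin E) (Fin E) (DiaSeries O r) => A.mulVec m) hk
    simp only [← Matrix.mulVec_mulVec, Matrix.add_mulVec, Matrix.sub_mulVec, hm₁, hm₂,
      Matrix.mulVec_zero, Matrix.zero_mulVec, sub_zero, add_zero] at h
    rw [Matrix.mulVec_mulVec, ← map_mul, ← pow_succ] at h
    exact h

/-- A limit point in the support kills what eventually kills the augmented levels. -/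
theorem apply_limit_point_eq_zero' [IsDomain O] (a : ℕ → Fin r → MvPowerSeries σ O)
    (ha : ∀ n i, Matrix.scalar (Fin D) ((1 + toLevel (O := O) (r := r) (p := p) n (X i)) ^ 2 + 1) =
      Matrix.scalar (Fin D) (1 + toLevel (O := O) (r := r) (p := p) n (X i)) * act n (a n i))
    (ψ : ℕ → MvPowerSeries σ O →ₐ[O] O) (hψa : ∀ n i, ψ n (a n i) = 2)
    (ψ₀ : MvPowerSeries σ O →+* O)
    (hψ₀ : ∀ (x : ℕ → MvPowerSeries σ O) (x₀ : MvPowerSeries σ O),
      (∀ k, ∀ᶠ n in (U : Filter ℕ), x n - x₀ ∈ maximalIdeal (MvPowerSeries σ O) ^ k) →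
      ∀ k, ∀ᶠ n in (U : Filter ℕ), ψ n (x n) - ψ₀ x₀ ∈ maximalIdeal O ^ k)
    (hsupp : limitAnn act U hp hU ≤ RingHom.ker ψ₀) (f : ℕ → MvPowerSeries σ O)
    (hf : ∀ᶠ n in (U : Filter ℕ), ∀ i j, act n (f n) i j ∈
      (Ideal.span (Set.range (X : Fin r → DiaSeries O r))).map (toLevel (p := p) n))
    {b : O} (hfb : ∀ᶠ n in (U : Filter ℕ), ψ n (f n) = b) : b = 0 := by
  classical
  have hlim : ∀ (x : ℕ → MvPowerSeries σ O) x₀ u,
      (∀ k, ∀ᶠ n in (U : Filter ℕ), x n - x₀ ∈ maximalIdeal (MvPowerSeries σ O) ^ k) →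
      (∀ᶠ n in (U : Filter ℕ), ψ n (x n) = u) → ψ₀ x₀ = u := fun x x₀ u hx hu => by
    refine sub_eq_zero.mp (IsHausdorff.haus' (I := maximalIdeal O) _ fun k => ?_)
    obtain ⟨n, hn, hun⟩ := ((hψ₀ x x₀ hx k).and hu).exists
    rw [SModEq.zero, smul_eq_mul, Ideal.mul_top]
    simpa [hun] using neg_mem hn
  choose a₀ ha₀ using fun i => exists_ultralimit U fun n => a n i
  obtain ⟨f₀, hf₀⟩ := exists_ultralimit U f
  have hz : ∀ i, limitAct act U hp hU (a₀ i - 2) = Matrix.scalar (Fin D) (zSeries i) :=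
    fun i => limitAct_quad hp hU act (a := fun n => a n i) (fun n => ha n i) (ha₀ i)
  have hb : ψ₀ f₀ = b := hlim f f₀ b hf₀ hfb
  have hc : ∀ i, a₀ i - 2 ∈ RingHom.ker ψ₀ := fun i => by
    rw [RingHom.mem_ker, map_sub, hlim _ _ 2 (ha₀ i) (Filter.Eventually.of_forall fun n => hψa n i), map_ofNat, sub_self]
  set I := Ideal.span (Set.range (X : Fin r → DiaSeries O r))
  have hI : ∀ i j, limitAct act U hp hU f₀ i j ∈ I := fun i j => by
    set L := limitAct act U hp hU f₀ i j
    have h0 : constantCoeff L = 0 := by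
      refine IsHausdorff.haus' (I := maximalIdeal O) _ fun k => ?_
      obtain ⟨n, ⟨hn, hk⟩, hfn⟩ := (((matApprox_act hp hU act hf₀ i j k).and (hU k)).and hf).exists
      rw [SModEq.zero, smul_eq_mul, Ideal.mul_top]
      have hmem : toLevel (p := p) n L ∈
          (I ⊔ maximalIdeal (DiaSeries O r) ^ k).map (toLevel (p := p) n) := by
        rw [Ideal.map_sup]
        simpa using Ideal.sub_mem _ (Ideal.mem_sup_left (hfn i j)) (Ideal.mem_sup_right hn)
      rw [← Ideal.mem_comap, Ideal.comap_map_of_surjective _ Ideal.Quotient.mk_surjective,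
        ← RingHom.ker_eq_comap_bot, Ideal.mk_ker] at hmem
      have hle : I ⊔ maximalIdeal (DiaSeries O r) ^ k ⊔ Assembly.levelIdeal (ι := Fin r) O p n ≤
          ((maximalIdeal O) ^ k).comap constantCoeff := by
        have hm : maximalIdeal (DiaSeries O r) ≤ (maximalIdeal O).comap constantCoeff := fun g hg =>
          (IsLocalRing.mem_maximalIdeal _).mpr fun h =>
            (IsLocalRing.mem_maximalIdeal g).mp hg (MvPowerSeries.isUnit_iff_constantCoeff.mpr h)
        have hmk := (Ideal.pow_right_mono hm k).trans (Ideal.le_comap_pow _ k)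
        refine sup_le (sup_le (Ideal.span_le.mpr ?_) hmk)
          ((Assembly.levelIdeal_le hp n).trans ((Ideal.pow_le_pow_right (by omega)).trans hmk))
        rintro _ ⟨l, rfl⟩
        simp
      exact hle hmem
    have := Patching.sub_C_mem_span_range_X L
    rwa [h0, map_zero, sub_zero] at this
  obtain ⟨N, hN⟩ : ∃ N, I ^ N ≤ Ideal.span (Set.range (zSeries (O := O) (r := r))) := by
    refine Ideal.exists_pow_le_of_le_radical_of_fg (Ideal.span_le.mpr ?_)
      (Submodule.fg_span (Set.finite_range _))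
    rintro _ ⟨i, rfl⟩
    refine ⟨2, ?_⟩
    have := Ideal.mul_mem_right (1 + X i) (Ideal.span (Set.range (zSeries (O := O) (r := r))))
      (Ideal.subset_span ⟨i, rfl⟩)
    rwa [zSeries, mul_assoc, mul_comm (MvPowerSeries.invOfUnit _ _), one_add_X_mul_inv,
      mul_one] at this
  have hpow : ∀ e i j, (limitAct act U hp hU f₀ ^ e) i j ∈ I ^ e := by
    intro e
    induction e with
    | zero => simp
    | succ e ih =>
      intro i j
      rw [pow_succ (limitAct act U hp hU f₀), Matrix.mul_apply, pow_succ I]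
      exact sum_mem fun l _ => Ideal.mul_mem_mul (ih i l) (hI l j)
  let _ := limitModule hp hU act
  have := finite_limit hp hU act fun n i => ⟨a n i, ha n i⟩
  have hmem : f₀ ^ N ∈ RingHom.ker ψ₀ := by
    have : (RingHom.ker ψ₀).IsPrime := RingHom.ker_isPrime _
    refine mem_of_forall_smul_mem (N := Fin D → DiaSeries O r)
      (by rw [annihilator_limitModule]; exact hsupp) fun v => ?_
    have hv : ∀ l, ∃ t : Fin r → DiaSeries O r,
        (f₀ ^ N • v) l = ∑ i, t i * zSeries i := fun l => by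
      have : (f₀ ^ N • v) l ∈ Ideal.span (Set.range (zSeries (O := O) (r := r))) := by
        rw [limitModule_smul, map_pow, Matrix.mulVec, dotProduct]
        exact sum_mem fun j _ => Ideal.mul_mem_right _ _ (hN (hpow N l j))
      obtain ⟨t, ht⟩ := Ideal.mem_span_range_iff_exists_fun.mp this
      exact ⟨t, ht.symm⟩
    choose t ht using hv
    rw [show f₀ ^ N • v = ∑ i, (a₀ i - 2) • fun l => t l i by
      funext l
      rw [ht, Finset.sum_apply]
      refine Finset.sum_congr rfl fun i _ => ?_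
      rw [limitModule_smul, hz, Matrix.scalar_apply, Matrix.mulVec_diagonal, mul_comm]]
    exact sum_mem fun i _ => Submodule.smul_mem_smul (hc i) Submodule.mem_top
  rw [RingHom.mem_ker, map_pow, hb] at hmem
  exact pow_eq_zero_iff'.mp hmem |>.1

end Fermat.Agent.RT.Lift
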