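import Fermat.Agent.RT.Lift.Germ.Scalar
import Fermat.Agent.RT.Lift.Germ.Line

/-!
# The trace series of a scalar place, and dimensions
-/

set_option autoImplicit false

noncomputable section

namespace Fermat.Agent.RT.Lift

open IsLocalRing MvPowerSeries

variable {O : Type} [CommRing O]

/-- A square root of `1 - 4 z`. -/
theorem exists_sq_eq_one_sub {σ : Type} (z : MvPowerSeries σ O) (hz : constantCoeff z = 0) :
    ∃ w : MvPowerSeries σ O, w ^ 2 = 1 - 4 * z ∧ constantCoeff w = 1 := by
  let cat : PowerSeries O := PowerSeries.map (Nat.castRingHom O) PowerSeries.catalanSeries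
  have hcat : cat ^ 2 * PowerSeries.X + 1 = cat := by
    have := congrArg (PowerSeries.map (Nat.castRingHom O)) PowerSeries.catalanSeries_sq_mul_X_add_one
    simpa using this
  have hs : HasSubst fun _ : Unit => z := hasSubst_of_constantCoeff_zero fun _ => hz
  let C' : MvPowerSeries σ O := substAlgHom (R := O) hs (cat : MvPowerSeries Unit O)
  have hC : C' ^ 2 * z + 1 = C' := by
    have h := congrArg (substAlgHom (R := O) hs) hcat
    rwa [map_add, map_mul, map_pow, map_one, show substAlgHom (R := O) hs (PowerSeries.X :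
      MvPowerSeries Unit O) = z from substAlgHom_X hs ()] at h
  refine ⟨1 - 2 * (z * C'), ?_, by simp [hz]⟩
  linear_combination 4 * z * hC

variable [IsLocalRing O] [IsAdicComplete (maximalIdeal O) O]

/-- **The trace series of a scalar place.** -/
theorem exists_scalar_trace {q ε : O} (h2 : IsUnit (2 : O)) (hqm : q - 1 ∈ maximalIdeal O)
    (hε : ε ^ 2 = 1) :
    ∃ T : MvPowerSeries (Fin 2 × Fin 3) O, T ^ 2 = (scalarSq q : MvPowerSeries _ O) ∧
      IsUnit (constantCoeff T + ε * (q + 1)) := by
  have hH : HenselianRing O (maximalIdeal O) := IsAdicComplete.henselianRing O _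
  have hq1 : IsUnit (q + 1) := by
    by_contra h
    refine (IsLocalRing.mem_maximalIdeal _).mp ?_ h2
    have := (maximalIdeal O).sub_mem ((IsLocalRing.mem_maximalIdeal _).mpr h) hqm
    rwa [add_sub_sub_cancel, one_add_one_eq_two] at this
  have hεu : IsUnit ε := IsUnit.of_mul_eq_one ε (by rw [← sq, hε])
  have ha₀ : IsUnit (2 * (ε * (q + 1))) := h2.mul (hεu.mul hq1)
  obtain ⟨c₀, hroot, hc₀⟩ := hH.is_henselian (Polynomial.X ^ 2 - Polynomial.C (4 * q))
    (Polynomial.monic_X_pow_sub_C _ two_ne_zero) (ε * (q + 1)) (by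
      simp only [Polynomial.eval_sub, Polynomial.eval_pow, Polynomial.eval_X, Polynomial.eval_C]
      rw [show (ε * (q + 1)) ^ 2 - 4 * q = (q - 1) * (q - 1) by
        linear_combination (q + 1) ^ 2 * hε]
      exact Ideal.mul_mem_left _ _ hqm) (by
      simpa [map_ofNat, one_add_one_eq_two] using ha₀.map (Ideal.Quotient.mk (maximalIdeal O)))
  simp only [Polynomial.IsRoot.def, Polynomial.eval_sub, Polynomial.eval_pow, Polynomial.eval_X,
    Polynomial.eval_C, sub_eq_zero] at hroot
  have hu : IsUnit (c₀ + ε * (q + 1)) := by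
    by_contra h
    refine (IsLocalRing.mem_maximalIdeal _).mp ?_ ha₀
    have := (maximalIdeal O).sub_mem ((IsLocalRing.mem_maximalIdeal _).mpr h) hc₀
    rwa [add_sub_sub_cancel, ← two_mul] at this
  have hc₀u : IsUnit c₀ := by
    by_contra h
    refine (IsLocalRing.mem_maximalIdeal _).mp ?_ ha₀
    have := (maximalIdeal O).mul_mem_left 2 ((maximalIdeal O).sub_mem
      ((IsLocalRing.mem_maximalIdeal _).mpr h) hc₀)
    rwa [sub_sub_cancel] at this
  obtain ⟨i, hi⟩ := (hc₀u.mul hc₀u).exists_right_inv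
  let d : MvPowerSeries (Fin 2 × Fin 3) O := X (1, 0) ^ 2 + X (1, 1) * X (1, 2)
  obtain ⟨w, hw, hw0⟩ := exists_sq_eq_one_sub (-(C i * d)) (by simp [d])
  refine ⟨C c₀ * w, ?_, by simpa [hw0] using hu⟩
  have e : (C c₀ : MvPowerSeries (Fin 2 × Fin 3) O) ^ 2 = 4 * C q := by
    rw [← map_pow, hroot, map_mul, map_ofNat]
  have e' : (C c₀ : MvPowerSeries (Fin 2 × Fin 3) O) * C c₀ * C i = 1 := by
    rw [← map_mul, ← map_mul, hi, map_one]
  rw [scalarSq, MvPolynomial.coe_mul, show ((4 : MvPolynomial (Fin 2 × Fin 3) O) :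
      MvPowerSeries (Fin 2 × Fin 3) O) = 4 from
        map_ofNat MvPolynomial.coeToMvPowerSeries.ringHom 4]
  simp only [MvPolynomial.coe_add, MvPolynomial.coe_mul, MvPolynomial.coe_pow, MvPolynomial.coe_C,
    MvPolynomial.coe_X]
  rw [mul_pow, hw]
  linear_combination e + 4 * d * e'

omit [IsLocalRing O] [IsAdicComplete (maximalIdeal O) O] in
/-- The dimension only depends on the number of variables. -/
theorem ringKrullDim_eq_of_card {τ τ' : Type} [Finite τ] [Finite τ']
    (h : Nat.card τ = Nat.card τ') :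
    ringKrullDim (MvPowerSeries τ O) = ringKrullDim (MvPowerSeries τ' O) :=
  ringKrullDim_eq_of_ringEquiv
    (renameEquiv O (Finite.card_eq.mp h).some).toRingEquiv

end Fermat.Agent.RT.Lift
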